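import Mathlib

/-!
# Smooth algebras of relative dimension one over an algebraically closed field
-/

set_option autoImplicit false

universe u

noncomputable section

open TensorProduct IsLocalRing

namespace Fermat.Agent.Jac

section StandardSmooth

variable (k A : Type u) [Field k] [IsAlgClosed k] [CommRing A] [Algebra k A]

/-- The rational value of a function at a maximal ideal. -/
theorem exists_sub_algebraMap_mem [Algebra.FiniteType k A] (m : Ideal A) [m.IsMaximal] (a : A) :
    ∃ c : k, a - algebraMap k A c ∈ m := by
  let := Ideal.Quotient.field m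
  have : Algebra.FiniteType k (A ⧸ m) :=
    .of_surjective (Ideal.Quotient.mkₐ k m) Ideal.Quotient.mk_surjective
  have : Module.Finite k (A ⧸ m) := finite_of_finite_type_of_isJacobsonRing k (A ⧸ m)
  obtain ⟨c, hc⟩ :=
    (IsAlgClosed.algebraMap_bijective_of_isIntegral (k := k) (K := A ⧸ m)).2 (Ideal.Quotient.mk m a)
  refine ⟨c, Ideal.Quotient.eq.mp ?_⟩
  rw [Ideal.Quotient.mk_algebraMap, hc]

variable [Algebra.IsStandardSmoothOfRelativeDimension 1 k A]

include k

omit [IsAlgClosed k] in
theorem finiteType_of_standardSmooth : Algebra.FiniteType k A :=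
  have := Algebra.IsStandardSmoothOfRelativeDimension.isStandardSmooth (R := k) (S := A) 1
  inferInstance

theorem not_isField_of_standardSmooth [Nontrivial A] : ¬ IsField A := by
  intro h
  let := h.toField
  have := finiteType_of_standardSmooth k A
  have : Module.Finite k A := finite_of_finite_type_of_isJacobsonRing k A
  have hs : Function.Surjective (algebraMap k A) :=
    (IsAlgClosed.algebraMap_bijective_of_isIntegral (k := k) (K := A)).2
  have := KaehlerDifferential.subsingleton_of_surjective k A hs
  have h1 := Algebra.IsStandardSmoothOfRelativeDimension.rank_kaehlerDifferential (R := k)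
    (S := A) 1
  rw [rank_subsingleton' A Ω[A⁄k]] at h1
  simp at h1

theorem exists_le_span_singleton_sup_sq (m : Ideal A) [hm : m.IsMaximal] :
    ∃ x ∈ m, m ≤ Ideal.span {x} ⊔ m ^ 2 := by
  have := finiteType_of_standardSmooth k A
  have : Nontrivial A := nontrivial_of_ne _ _ fun h : (0 : A) = 1 =>
    hm.ne_top ((Ideal.eq_top_iff_one m).mpr (h ▸ m.zero_mem))
  have := Algebra.IsStandardSmoothOfRelativeDimension.isStandardSmooth (R := k) (S := A) 1
  -- The residue field is `k`; let `σ` be the evaluation.
  choose σ hσ using exists_sub_algebraMap_mem k A m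
  have huniq : ∀ (a : A) (c : k), a - algebraMap k A c ∈ m → σ a = c := fun a c hc => by
    by_contra hne
    refine hm.ne_top (Ideal.eq_top_of_isUnit_mem _ ?_
      ((sub_ne_zero.mpr hne).isUnit.map (algebraMap k A)))
    convert m.sub_mem hc (hσ a) using 1
    rw [map_sub]; abel
  have hadd : ∀ a b, σ (a + b) = σ a + σ b := fun a b =>
    huniq _ _ (by convert m.add_mem (hσ a) (hσ b) using 1; rw [map_add]; abel)
  have hsmul : ∀ (c : k) a, σ (c • a) = c * σ a := fun c a =>
    huniq _ _ (by
      convert m.mul_mem_left (algebraMap k A c) (hσ a) using 1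
      rw [Algebra.smul_def, map_mul, mul_sub])
  have hmul : ∀ a b, σ (a * b) = σ a * σ b := fun a b =>
    huniq _ _ (by
      convert m.add_mem (m.mul_mem_left a (hσ b)) (m.mul_mem_right (algebraMap k A (σ b)) (hσ a))
        using 1
      rw [map_mul]; ring)
  let L : A →ₗ[k] m.Cotangent :=
    { toFun := fun a => m.toCotangent ⟨a - algebraMap k A (σ a), hσ a⟩
      map_add' := fun a b => by
        rw [← map_add]; congr 1; ext
        simp only [hadd, map_add, Submodule.coe_add]; abel
      map_smul' := fun c a => by
        rw [RingHom.id_apply, ← algebraMap_smul A c (m.toCotangent _), ← map_smul]; congr 1; ext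
        simp only [hsmul, map_mul, SetLike.val_smul, smul_eq_mul]
        rw [Algebra.smul_def]; ring }
  -- `a ↦ a - σ a` gives a derivation into `m / m²`.
  let δ : Derivation k A m.Cotangent := Derivation.mk' L fun a b => by
    change m.toCotangent _ = a • m.toCotangent _ + b • m.toCotangent _
    rw [← map_smul, ← map_smul, ← map_add, Ideal.toCotangent_eq]
    simp only [hmul, map_mul, Submodule.coe_add, SetLike.val_smul, smul_eq_mul]
    rw [show a * b - algebraMap k A (σ a) * algebraMap k A (σ b) -
        (a * (b - algebraMap k A (σ b)) + b * (a - algebraMap k A (σ a))) =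
        -((a - algebraMap k A (σ a)) * (b - algebraMap k A (σ b))) by ring, pow_two]
    exact neg_mem (Ideal.mul_mem_mul (hσ a) (hσ b))
  -- As the differentials are free of rank one, one element generates `m` modulo `m²`.
  have h1 : Module.finrank A Ω[A⁄k] = 1 := Module.finrank_eq_of_rank_eq
    ((Algebra.IsStandardSmoothOfRelativeDimension.rank_kaehlerDifferential
      (R := k) (S := A) 1).trans (by simp))
  obtain ⟨v, -, hv⟩ := finrank_eq_one_iff'.mp h1
  let φ := δ.liftKaehlerDifferential
  obtain ⟨x, hx⟩ := m.toCotangent_surjective (φ v)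
  refine ⟨x, x.2, fun a ha => ?_⟩
  have hσa : σ a = 0 := huniq a 0 (by simpa using ha)
  obtain ⟨c, hc⟩ := hv (KaehlerDifferential.D k A a)
  have key : m.toCotangent ⟨a, ha⟩ = m.toCotangent (c • x) := by
    have h2 : φ (KaehlerDifferential.D k A a) = δ a := Derivation.liftKaehlerDifferential_comp_D δ a
    rw [map_smul, hx, ← map_smul, hc, h2]
    change _ = m.toCotangent _
    congr 1
    ext
    simp [hσa]
  rw [Ideal.toCotangent_eq] at key
  rw [show a = c * (x : A) + (a - c * (x : A)) by ring]
  exact Submodule.add_mem_sup (Ideal.mul_mem_left _ _ (Ideal.mem_span_singleton_self _))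
    (by simpa using key)

/-- The local ring at a maximal ideal is a discrete valuation ring. -/
theorem isDiscreteValuationRing_atPrime [IsDomain A] (m : Ideal A) [hm : m.IsMaximal] :
    IsDiscreteValuationRing (Localization.AtPrime m) := by
  have := finiteType_of_standardSmooth k A
  have : IsNoetherianRing A := Algebra.FiniteType.isNoetherianRing k A
  have : IsNoetherianRing (Localization.AtPrime m) :=
    IsLocalization.isNoetherianRing m.primeCompl _ inferInstance
  obtain ⟨x, hx, hle⟩ := exists_le_span_singleton_sup_sq k A m
  let R := Localization.AtPrime m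
  have hM : maximalIdeal R = m.map (algebraMap A R) :=
    (Localization.AtPrime.map_eq_maximalIdeal).symm
  have hprin : maximalIdeal R = Ideal.span {algebraMap A R x} := by
    refine le_antisymm ?_ ((Ideal.span_singleton_le_iff_mem _).mpr (hM ▸ Ideal.mem_map_of_mem _ hx))
    refine Submodule.le_of_le_smul_of_le_jacobson_bot (I := maximalIdeal R)
      (IsNoetherian.noetherian _) (maximalIdeal_le_jacobson _) ?_
    rw [smul_eq_mul, ← pow_two, hM]
    refine (Ideal.map_mono hle).trans ?_
    rw [Ideal.map_sup, Ideal.map_span, Set.image_singleton, Ideal.map_pow]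
  have hnf : ¬ IsField R := by
    rw [IsLocalRing.isField_iff_maximalIdeal_eq]
    intro h0
    refine not_isField_of_standardSmooth k A ?_
    have hbot : m = ⊥ := by
      rw [hM, Ideal.map_eq_bot_iff_le_ker] at h0
      exact eq_bot_iff.mpr fun a ha => IsLocalization.injective R m.primeCompl_le_nonZeroDivisors
        (by simpa using RingHom.mem_ker.mp (h0 ha))
    rw [Ring.isField_iff_maximal_bot]
    exact hbot ▸ hm
  exact ((IsDiscreteValuationRing.TFAE R hnf).out 0 4 rfl rfl).mpr
    (show (maximalIdeal R).IsPrincipal from ⟨⟨_, hprin⟩⟩)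

theorem isMaximal_of_standardSmooth [IsDomain A] (Q : Ideal A) [hQ : Q.IsPrime] (hne : Q ≠ ⊥) :
    Q.IsMaximal := by
  obtain ⟨m, hm, hle⟩ := Q.exists_le_maximal hQ.ne_top
  have := isDiscreteValuationRing_atPrime k A m
  have hd : Disjoint (m.primeCompl : Set A) Q := Set.disjoint_left.mpr fun a ha ha' => ha (hle ha')
  have hp : (Q.map (algebraMap A (Localization.AtPrime m))).IsPrime :=
    IsLocalization.isPrime_of_isPrime_disjoint m.primeCompl _ Q hQ hd
  have hne' : Q.map (algebraMap A (Localization.AtPrime m)) ≠ ⊥ := fun h => hne <|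
    (Ideal.map_eq_bot_iff_of_injective
      (IsLocalization.injective _ m.primeCompl_le_nonZeroDivisors)).mp h
  have h1 := IsLocalRing.eq_maximalIdeal (Ideal.IsPrime.isMaximal hp hne')
  have h2 : Q = m := by
    calc Q = (Q.map (algebraMap A (Localization.AtPrime m))).under A :=
          (IsLocalization.under_map_of_isPrime_disjoint m.primeCompl _ hQ hd).symm
      _ = (maximalIdeal (Localization.AtPrime m)).under A := by rw [h1]
      _ = m := Localization.AtPrime.under_maximalIdeal
  exact h2 ▸ hm

end StandardSmooth

/-- A domain which is locally standard smooth of relative dimension one over an algebraically closed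
field is a Dedekind domain and not a field. -/
theorem isDedekindDomain_of_locally {k A : Type u} [Field k] [IsAlgClosed k] [CommRing A]
    [IsDomain A] [Algebra k A] [IsNoetherianRing A]
    (h : RingHom.Locally (RingHom.IsStandardSmoothOfRelativeDimension 1) (algebraMap k A)) :
    IsDedekindDomain A ∧ ¬ IsField A := by
  obtain ⟨s, hs, hs'⟩ := h
  have hg : ∀ g ∈ s, g ≠ 0 → IsDomain (Localization.Away g) ∧
      Algebra.IsStandardSmoothOfRelativeDimension 1 k (Localization.Away g) := fun g hg h0 => by
    refine ⟨IsLocalization.isDomain_localization (powers_le_nonZeroDivisors_of_noZeroDivisors h0),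
      ?_⟩
    rw [← RingHom.isStandardSmoothOfRelativeDimension_algebraMap,
      IsScalarTower.algebraMap_eq k A (Localization.Away g)]
    exact hs' g hg
  refine ⟨?_, fun hF => ?_⟩
  · suffices IsDedekindDomainDvr A from inferInstance
    -- At a nonzero prime pick a standard smooth `D(g)` containing it: the local ring is a DVR.
    refine ⟨fun P hP hP' => ?_⟩
    obtain ⟨g, hgs, hgP⟩ : ∃ g ∈ s, g ∉ P := by
      by_contra! hc
      exact hP'.ne_top (top_le_iff.mp (hs ▸ Ideal.span_le.mpr hc))
    have h0 : g ≠ 0 := fun h => hgP (h ▸ P.zero_mem)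
    obtain ⟨_, _⟩ := hg g hgs h0
    let T := Localization.Away g
    have hd : Disjoint (Submonoid.powers g : Set A) P := Set.disjoint_left.mpr
      fun a ⟨n, hn⟩ ha => hgP (hP'.mem_of_pow_mem n (by subst hn; exact ha))
    let Q := P.map (algebraMap A T)
    have hQ : Q.IsPrime := IsLocalization.isPrime_of_isPrime_disjoint (.powers g) _ P hP' hd
    have hQ0 : Q ≠ ⊥ := fun h => hP <| (Ideal.map_eq_bot_iff_of_injective
      (IsLocalization.injective T (powers_le_nonZeroDivisors_of_noZeroDivisors h0))).mp h
    have := isMaximal_of_standardSmooth k T Q hQ0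
    have := isDiscreteValuationRing_atPrime k T Q
    have hcomap : Q.comap (algebraMap A T) = P :=
      IsLocalization.under_map_of_isPrime_disjoint (.powers g) _ hP' hd
    have hL : IsLocalization.AtPrime (Localization.AtPrime Q) P := by
      have := IsLocalization.isLocalization_isLocalization_atPrime_isLocalization (.powers g)
        (Localization.AtPrime Q) Q
      change IsLocalization.AtPrime (Localization.AtPrime Q) (Q.comap (algebraMap A T)) at this
      simp only [hcomap] at this
      exact this
    exact IsDiscreteValuationRing.RingEquivClass.isDiscreteValuationRing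
      (IsLocalization.algEquiv P.primeCompl
      (Localization.AtPrime Q) (Localization.AtPrime P)).toRingEquiv
  -- It is not a field, as a standard smooth algebra of dimension one is not.
  · obtain ⟨g, hgs, h0⟩ : ∃ g ∈ s, g ≠ 0 := by
      by_contra! hc
      have : Ideal.span s ≤ ⊥ := Ideal.span_le.mpr fun g hg => by simp [hc g hg]
      rw [hs, top_le_iff] at this
      exact bot_ne_top this
    obtain ⟨_, _⟩ := hg g hgs h0
    refine not_isField_of_standardSmooth k (Localization.Away g) ?_
    exact MulEquiv.isField hF (IsLocalization.atUnits A (Submonoid.powers g)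
      (fun a ⟨n, hn⟩ => hn ▸ IsUnit.pow n
        (.of_mul_eq_one _ (hF.mul_inv_cancel h0).choose_spec))).symm.toMulEquiv

/-- The product of a finitely generated domain over an algebraically closed field with any domain is
a domain. -/
theorem isDomain_tensorProduct {k : Type u} [Field k] [IsAlgClosed k] (B K : Type u) [CommRing B]
    [IsDomain B] [Algebra k B] [Algebra.FiniteType k B] [CommRing K] [IsDomain K] [Algebra k K] :
    IsDomain (K ⊗[k] B) := by
  classical
  let e := Module.Free.chooseBasis k K
  let r := Algebra.TensorProduct.basis B e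
  have : IsJacobsonRing B := isJacobsonRing_of_finiteType (A := k)
  have hnt : Nontrivial (B ⊗[k] K) :=
    Algebra.TensorProduct.nontrivial_of_algebraMap_injective_of_flat_left k B K
      (algebraMap k K).injective
  have hnz : NoZeroDivisors (B ⊗[k] K) := ⟨fun {x y} hxy => by
    by_contra! hc
    obtain ⟨hx, hy⟩ := hc
    obtain ⟨i, hi⟩ : ∃ i, r.repr x i ≠ 0 := by
      by_contra! hz
      exact hx (r.repr.injective (Finsupp.ext fun i => by simp [hz i]))
    obtain ⟨j, hj⟩ : ∃ j, r.repr y j ≠ 0 := by
      by_contra! hz
      exact hy (r.repr.injective (Finsupp.ext fun i => by simp [hz i]))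
    -- Evaluating at each maximal ideal, `x i * y j` lies in all of them, hence is `0`.
    refine mul_ne_zero hi hj ?_
    have hall : r.repr x i * r.repr y j ∈ (⊥ : Ideal B).jacobson := by
      rw [Ideal.jacobson, Submodule.mem_sInf]
      rintro m ⟨-, hm⟩
      let := Ideal.Quotient.field m
      have : Algebra.FiniteType k (B ⧸ m) :=
        .of_surjective (Ideal.Quotient.mkₐ k m) Ideal.Quotient.mk_surjective
      have : Module.Finite k (B ⧸ m) := finite_of_finite_type_of_isJacobsonRing k (B ⧸ m)
      let q : B →ₐ[k] k := (AlgEquiv.ofBijective (Algebra.ofId k (B ⧸ m))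
        IsAlgClosed.algebraMap_bijective_of_isIntegral).symm.toAlgHom.comp (Ideal.Quotient.mkₐ k m)
      let Φ : B ⊗[k] K →ₐ[k] K :=
        Algebra.TensorProduct.lift ((Algebra.ofId k K).comp q) (AlgHom.id k K) fun _ _ =>
          mul_comm _ _
      have hΦ : ∀ z i, e.repr (Φ z) i = q (r.repr z i) := by
        intro z i
        induction z with
        | zero => simp
        | tmul b a =>
          have h1 : Φ (b ⊗ₜ a) = q b • a := by
            rw [Algebra.smul_def]
            exact Algebra.TensorProduct.lift_tmul _ _ _ _ _
          rw [h1, map_smul, Finsupp.smul_apply, smul_eq_mul]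
          simp [r, mul_comm (q b)]
        | add u v hu hv => simp [hu, hv]
      have hz : q (r.repr x i * r.repr y j) = 0 := by
        rcases mul_eq_zero.mp (show Φ x * Φ y = 0 by rw [← map_mul, hxy, map_zero]) with h | h
        · have := hΦ x i
          rw [h] at this
          simp [map_mul, ← this]
        · have := hΦ y j
          rw [h] at this
          simp [map_mul, ← this]
      have hz' : Ideal.Quotient.mk m (r.repr x i * r.repr y j) = 0 := by
        simpa [q] using hz
      exact Ideal.Quotient.eq_zero_iff_mem.mp hz'
    rwa [IsJacobsonRing.out' ⊥ (Ideal.isRadical_bot_iff.mpr inferInstance), Ideal.mem_bot] at hall⟩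
  have : IsDomain (B ⊗[k] K) := NoZeroDivisors.to_isDomain _
  exact (Algebra.TensorProduct.comm k K B).toMulEquiv.isDomain (B ⊗[k] K)

end Fermat.Agent.Jac

end
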