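import Fermat.Agent.Jac.Scheme.CoverAlg

/-!
# Rational functions on a smooth proper curve
-/

set_option autoImplicit false

universe u

noncomputable section

open CategoryTheory AlgebraicGeometry TopologicalSpace

namespace Fermat.Agent.Jac.CoverFun

variable {k : Type u} [Field k] {C : Scheme.{u}} (c : C ⟶ Spec (CommRingCat.of k))

theorem le_preimage_top (U : C.Opens) : U ≤ c ⁻¹ᵁ ⊤ := le_top

/-- The structure map of the sections over an open set. -/
def kSec (U : C.Opens) : CommRingCat.of k ⟶ Γ(C, U) :=
  (Scheme.ΓSpecIso (CommRingCat.of k)).inv ≫ c.appLE ⊤ U (le_preimage_top c U)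

theorem kSec_map {U V : C.Opens} (h : V ≤ U) :
    kSec c U ≫ C.presheaf.map (homOfLE h).op = kSec c V := by
  rw [kSec, kSec, Category.assoc, Scheme.Hom.appLE_map]

/-- The canonical map of an open set to its affinisation is compatible with the structure maps. -/
theorem toSpecΓ_kSec (U : C.Opens) : U.toSpecΓ ≫ Spec.map (kSec c U) = U.ι ≫ c := by
  rw [kSec, Spec.map_comp, Scheme.Opens.toSpecΓ_SpecMap_appLE_assoc, Scheme.Opens.toSpecΓ_top]
  simp

/-- An affine open maps to the base by its constants. -/
theorem fromSpec_over {U : C.Opens} (hU : IsAffineOpen U) :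
    hU.fromSpec ≫ c = Spec.map (kSec c U) := by
  rw [← cancel_epi hU.isoSpec.hom, IsAffineOpen.isoSpec_hom, toSpecΓ_kSec,
    IsAffineOpen.toSpecΓ_fromSpec_assoc]

/-- The algebra structure on the sections over an open set. -/
@[reducible]
def secAlgebra (U : C.Opens) : Algebra k Γ(C, U) := (kSec c U).hom.toAlgebra

section Field

variable {c} [IsIntegral C]

variable (c) in
/-- The constants in the function field. -/
def kFun : k →+* C.functionField :=
  haveI : Nonempty (⊤ : C.Opens) := ⟨⟨genericPoint C, trivial⟩⟩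
  (C.germToFunctionField ⊤).hom.comp (kSec c ⊤).hom

theorem germToFunctionField_map {U V : C.Opens} [Nonempty U] [Nonempty V] (h : V ≤ U)
    (s : Γ(C, U)) :
    C.germToFunctionField V (C.presheaf.map (homOfLE h).op s) = C.germToFunctionField U s := by
  rw [← ConcreteCategory.comp_apply]
  exact ConcreteCategory.congr_hom (C.presheaf.germ_res (homOfLE h) _ _) s

/-- The constants on an open set are those of the function field. -/
theorem germToFunctionField_kSec (U : C.Opens) [Nonempty U] (a : k) :
    C.germToFunctionField U (kSec c U a) = kFun c a := by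
  have : Nonempty (⊤ : C.Opens) := ⟨⟨genericPoint C, trivial⟩⟩
  rw [← kSec_map c (le_top : U ≤ ⊤)]
  exact germToFunctionField_map le_top _

/-- A rational function is regular at a point. -/
def Reg (F : C.functionField) (x : C) : Prop :=
  F ∈ (algebraMap (C.presheaf.stalk x) C.functionField).range

theorem exists_open_of_reg {F : C.functionField} {x : C} (h : Reg F x) :
    ∃ (V : C.Opens) (_ : Nonempty V) (s : Γ(C, V)), x ∈ V ∧ C.germToFunctionField V s = F := by
  obtain ⟨z, hz⟩ := h
  obtain ⟨V, hx, s, rfl⟩ := C.presheaf.exists_germ_eq z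
  have : Nonempty V := ⟨⟨x, hx⟩⟩
  exact ⟨V, this, s, hx, by rw [← hz, C.algebraMap_germ_eq_germToFunctionField]⟩

theorem reg_germToFunctionField {V : C.Opens} [Nonempty V] (s : Γ(C, V)) {x : C} (hx : x ∈ V) :
    Reg (C.germToFunctionField V s) x :=
  ⟨C.presheaf.germ V x hx s, C.algebraMap_germ_eq_germToFunctionField hx s⟩

/-- The domain of regularity of a rational function. -/
def regLocus (F : C.functionField) : C.Opens :=
  ⟨{x | Reg F x}, isOpen_iff_forall_mem_open.mpr fun x hx => by
    obtain ⟨V, hV, s, hxV, rfl⟩ := exists_open_of_reg hx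
    exact ⟨V, fun y hy => reg_germToFunctionField s hy, V.2, hxV⟩⟩

theorem exists_section (F : C.functionField) [Nonempty (regLocus F)] :
    ∃ s : Γ(C, regLocus F), C.germToFunctionField (regLocus F) s = F := by
  choose V hV s hxV hs using fun x : regLocus F => exists_open_of_reg x.2
  let W : regLocus F → C.Opens := fun x => V x ⊓ regLocus F
  let sW : ∀ x, Γ(C, W x) := fun x => C.presheaf.map (homOfLE inf_le_left).op (s x)
  have hne : ∀ x, Nonempty (W x) := fun x => ⟨⟨x, hxV x, x.2⟩⟩
  have hsW : ∀ x, C.germToFunctionField (W x) (sW x) = F := fun x =>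
    (germToFunctionField_map inf_le_left (s x)).trans (hs x)
  have hcomp : TopCat.Presheaf.IsCompatible C.sheaf.1 W sW := fun x y => by
    rcases isEmpty_or_nonempty (W x ⊓ W y : C.Opens) with h | h
    · have hb : W x ⊓ W y = ⊥ := le_antisymm (fun z hz => h.elim ⟨z, hz⟩) bot_le
      have : Subsingleton Γ(C, W x ⊓ W y) := by rw [hb]; infer_instance
      exact Subsingleton.elim (α := Γ(C, W x ⊓ W y)) _ _
    · apply C.germToFunctionField_injective (W x ⊓ W y)
      exact ((germToFunctionField_map inf_le_left (sW x)).trans (hsW x)).trans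
        ((germToFunctionField_map inf_le_right (sW y)).trans (hsW y)).symm
  obtain ⟨t, ht, -⟩ := C.sheaf.existsUnique_gluing' W (regLocus F)
    (fun x => homOfLE inf_le_right) (fun z hz => Opens.mem_iSup.mpr ⟨⟨z, hz⟩, hxV _, hz⟩) sW hcomp
  obtain ⟨x⟩ := ‹Nonempty (regLocus F)›
  have : Nonempty (W x) := hne x
  exact ⟨t, (germToFunctionField_map (inf_le_right : W x ≤ regLocus F) t).symm.trans
    ((congrArg (C.germToFunctionField (W x)) (ht x)).trans (hsW x))⟩

/-- A nonempty open set contains the generic point. -/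
theorem genericPoint_mem_of_nonempty (U : C.Opens) [h : Nonempty U] : genericPoint C ∈ U :=
  ((genericPoint_spec C).mem_open_set_iff U.2).mpr ⟨h.some.1, trivial, h.some.2⟩

theorem nonempty_regLocus (F : C.functionField) : Nonempty (regLocus F) := by
  obtain ⟨V, hx, s, hs⟩ := C.presheaf.exists_germ_eq F
  have : Nonempty V := ⟨⟨_, hx⟩⟩
  exact ⟨⟨genericPoint C, hs ▸ reg_germToFunctionField s hx⟩⟩

/-- A section is invertible at a point exactly when its rational function is nonzero with inverse
regular there. -/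
theorem isUnit_germ_iff {V : C.Opens} [Nonempty V] (s : Γ(C, V)) {x : C} (hx : x ∈ V) :
    IsUnit (C.presheaf.germ V x hx s) ↔
      C.germToFunctionField V s ≠ 0 ∧ Reg (C.germToFunctionField V s)⁻¹ x := by
  have hinj := IsFractionRing.injective (C.presheaf.stalk x) C.functionField
  rw [← C.algebraMap_germ_eq_germToFunctionField hx s]
  constructor
  · rintro ⟨v, hv⟩
    rw [← hv]
    exact ⟨(v.isUnit.map _).ne_zero, _, by rw [map_units_inv]⟩
  · rintro ⟨h0, z, hz⟩
    refine .of_mul_eq_one z (hinj ?_)
    rw [map_mul, hz, map_one, mul_inv_cancel₀ h0]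

end Field

section Curve

variable [IsAlgClosed k] [IsProper c] [SmoothOfRelativeDimension 1 c] [IsIntegral C]

include c in
omit [IsAlgClosed k] [SmoothOfRelativeDimension 1 c] [IsIntegral C] in
theorem isNoetherian_curve : IsNoetherian C := by
  have := LocallyOfFiniteType.isLocallyNoetherian c
  have := (quasiCompact_iff_compactSpace c).mp inferInstance
  exact {}

omit [IsAlgClosed k] [IsProper c] [IsIntegral C] in
theorem locally_kSec {U : C.Opens} (hU : IsAffineOpen U) :
    RingHom.Locally (RingHom.IsStandardSmoothOfRelativeDimension 1) (kSec c U).hom := by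
  have h := HasRingHomProperty.appLE (@SmoothOfRelativeDimension 1) c inferInstance
    ⟨⊤, isAffineOpen_top _⟩ ⟨U, hU⟩ (le_preimage_top c U)
  exact (RingHom.locally_respectsIso RingHom.isStandardSmoothOfRelativeDimension_respectsIso).2 _
    (Scheme.ΓSpecIso (CommRingCat.of k)).symm.commRingCatIsoToRingEquiv h

include c in
theorem isDedekindDomain_affine {U : C.Opens} (hU : IsAffineOpen U) [Nonempty U] :
    IsDedekindDomain Γ(C, U) ∧ ¬ IsField Γ(C, U) := by
  have := isNoetherian_curve c
  have : IsNoetherianRing Γ(C, U) := IsLocallyNoetherian.component_noetherian ⟨U, hU⟩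
  let := secAlgebra c U
  exact isDedekindDomain_of_locally (k := k) (A := Γ(C, U)) (locally_kSec c hU)

theorem primeIdealOf_eq_bot_iff {U : C.Opens} (hU : IsAffineOpen U) [Nonempty U] (x : U) :
    (hU.primeIdealOf x).asIdeal = ⊥ ↔ (x : C) = genericPoint C := by
  have hbot : (genericPoint (Spec Γ(C, U))).asIdeal = ⊥ := by
    rw [genericPoint_eq_bot_of_affine]; rfl
  have h0 := hU.primeIdealOf_genericPoint
  constructor
  · intro h
    have : hU.primeIdealOf x = genericPoint (Spec Γ(C, U)) := PrimeSpectrum.ext (h.trans hbot.symm)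
    have := congrArg hU.fromSpec (this.trans h0.symm)
    rwa [hU.fromSpec_primeIdealOf, hU.fromSpec_primeIdealOf] at this
  · intro h
    obtain ⟨x, hx⟩ := x
    subst h
    exact (congrArg PrimeSpectrum.asIdeal h0).trans hbot

include c in
theorem isClosed_of_ne_genericPoint {x : C} (hx : x ≠ genericPoint C) : IsClosed ({x} : Set C) := by
  obtain ⟨_, ⟨U, hU, rfl⟩, hxU, -⟩ :=
    C.isBasis_affineOpens.exists_subset_of_mem_open (Set.mem_univ x) isOpen_univ
  replace hU : IsAffineOpen U := hU
  have : Nonempty U := ⟨⟨x, hxU⟩⟩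
  have := (isDedekindDomain_affine c hU).1
  let P := hU.primeIdealOf ⟨x, hxU⟩
  have hP : P.asIdeal ≠ ⊥ := fun h => hx ((primeIdealOf_eq_bot_iff hU ⟨x, hxU⟩).mp h)
  have hPc : IsClosed ({P} : Set (Spec Γ(C, U))) :=
    (PrimeSpectrum.isClosed_singleton_iff_isMaximal P).mpr (Ideal.IsPrime.isMaximal P.2 hP)
  have : JacobsonSpace C := LocallyOfFiniteType.jacobsonSpace c
  apply isClosed_singleton_of_isLocallyClosed_singleton
  have h1 := hPc.isLocallyClosed.image hU.fromSpec.isOpenEmbedding.isInducing
    hU.fromSpec.isOpenEmbedding.isOpen_range.isLocallyClosed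
  have e : (hU.fromSpec '' {P} : Set C) = {x} :=
    Set.image_singleton.trans (congrArg _ (hU.fromSpec_primeIdealOf ⟨x, hxU⟩))
  exact e ▸ h1

include c in
theorem finite_of_isClosed {Z : Set C} (hZ : IsClosed Z) (hη : genericPoint C ∉ Z) : Z.Finite := by
  have := isNoetherian_curve c
  obtain ⟨S, hSf, hSc, hSi, rfl⟩ := NoetherianSpace.exists_finite_set_isClosed_irreducible hZ
  refine hSf.sUnion fun W hW => ?_
  obtain ⟨ξ, hξ⟩ := QuasiSober.sober (hSi W hW) (hSc W hW)
  have hξne : ξ ≠ genericPoint C := fun h => hη ⟨W, hW, h ▸ hξ.mem⟩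
  rw [← hξ.def, (isClosed_of_ne_genericPoint c hξne).closure_eq]
  exact Set.finite_singleton _

include c in
/-- A rational function or its inverse is regular at each point. -/
theorem reg_or_reg_inv (F : C.functionField) (x : C) : Reg F x ∨ Reg F⁻¹ x := by
  have hv : ValuationRing (C.presheaf.stalk x) := by
    by_cases hx : x = genericPoint C
    · subst hx
      exact inferInstanceAs (ValuationRing C.functionField)
    · obtain ⟨_, ⟨U, hU, rfl⟩, hxU, -⟩ :=
        C.isBasis_affineOpens.exists_subset_of_mem_open (Set.mem_univ x) isOpen_univ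
      have : Nonempty U := ⟨⟨x, hxU⟩⟩
      have := (isDedekindDomain_affine c hU).1
      let := TopCat.Presheaf.algebra_section_stalk C.presheaf (U := U) ⟨x, hxU⟩
      have := hU.isLocalization_stalk ⟨x, hxU⟩
      have := IsLocalization.AtPrime.isDiscreteValuationRing_of_dedekind_domain Γ(C, U)
        (P := (hU.primeIdealOf ⟨x, hxU⟩).asIdeal)
        (fun h => hx ((primeIdealOf_eq_bot_iff hU ⟨x, hxU⟩).mp h)) (C.presheaf.stalk x)
      infer_instance
  exact ValuationRing.isInteger_or_isInteger (C.presheaf.stalk x) F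

include c in
omit [SmoothOfRelativeDimension 1 c] in
theorem eq_kFun_of_reg {F : C.functionField} (h : ∀ x, Reg F x) : ∃ a, F = kFun c a := by
  have htop : regLocus F = ⊤ := eq_top_iff.mpr fun x _ => h x
  have := nonempty_regLocus F
  obtain ⟨s, hs⟩ := exists_section F
  have : Nonempty (⊤ : C.Opens) := ⟨⟨genericPoint C, trivial⟩⟩
  let := (isField_of_universallyClosed k c).toField
  let := ((Scheme.ΓSpecIso (CommRingCat.of k)).commRingCatIsoToRingEquiv.toMulEquiv.isField
    (Field.toIsField k)).toField
  let := secAlgebra c (⊤ : C.Opens)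
  have : Module.Finite k Γ(C, ⊤) := by
    have h1 := finite_appTop_of_universallyClosed k c
    have h2 : (kSec c (⊤ : C.Opens)).hom.Finite := by
      rw [kSec, CommRingCat.hom_comp]
      refine RingHom.Finite.comp ?_
        (RingEquiv.finite (Scheme.ΓSpecIso (CommRingCat.of k)).symm.commRingCatIsoToRingEquiv)
      rw [Scheme.Hom.appTop, Scheme.Hom.app_eq_appLE] at h1
      exact h1
    exact h2
  obtain ⟨a, ha⟩ := (IsAlgClosed.algebraMap_bijective_of_isIntegral (k := k) (K := Γ(C, ⊤))).2
    (C.presheaf.map (eqToHom htop.symm).op s)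
  refine ⟨a, ?_⟩
  rw [← hs, ← germToFunctionField_kSec ⊤ a]
  change _ = C.germToFunctionField ⊤ (algebraMap k Γ(C, ⊤) a)
  rw [ha]
  exact (germToFunctionField_map htop.ge s).symm

end Curve

end Fermat.Agent.Jac.CoverFun

end
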