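import Fermat.Agent.Jac.Scheme.Abel.Equiv

/-!
# Algebraic equivalence to zero is degree zero
-/

set_option autoImplicit false

universe u

noncomputable section

open CategoryTheory AlgebraicGeometry AlgebraicGeometry.RelPicard NeronModelInfra
  TensorProduct

namespace Fermat.Agent.Jac.CurveCover

variable {k : Type u} [Field k] [IsAlgClosed k] {C : Scheme.{u}} {c : C ⟶ Spec (CommRingCat.of k)}
  [IsProper c] [SmoothOfRelativeDimension 1 c] [IsIntegral C]
  {ε : SchemeHomOver (𝟙 (Spec (CommRingCat.of k))) c} (cov : CurveCover c ε)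

/-- Algebraic equivalence to zero is degree zero. -/
theorem fibrewiseAlgEquivZero_iff {T : Scheme.{u}} {t : T ⟶ Spec (CommRingCat.of k)}
    (M : RigidifiedLineBundle c ε t) :
    FibrewiseAlgEquivZero M ↔ cov.DegZero t M.L M.isInvertible := by
  constructor
  · intro h K _ _ _ s
    exact (Abel.isAlgEquivZero_fibre_iff cov M.L M.isInvertible s).mp (h K s.1)
  · intro h K _ _ s
    let : Algebra k K := (Spec.preimage (s ≫ t)).hom.toAlgebra
    exact (Abel.isAlgEquivZero_fibre_iff cov M.L M.isInvertible ⟨s, (Spec.map_preimage _).symm⟩).mpr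
      (h K _)

end Fermat.Agent.Jac.CurveCover

end
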