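import Fermat.Agent.Jac.Cohom
import Fermat.Agent.Jac.Scheme.Sec.DegZero
import Fermat.Agent.Jac.Scheme.Sec.Iso
import Fermat.Agent.Jac.Scheme.Sec.Rigid

/-!
# Line bundles on the curve over an affine base as algebraic line bundles

The dictionary between invertible sheaves on the curve over `Spec R` and the algebraic bundles `LB`:
`sec`, `sec_unit`, `sec_isomorphic_iff`, `exists_sec`, `secPullback`, `rigidified_iff`,
`eq_id_of_rigSection`, `DegZero` and `degZero_spec_iff`.
-/
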