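import Fermat.Prelude.Def_AlgebraicGeometry_RelativePicardFunctor

/-!
# A Zariski sheaf covered by open representable subfunctors is representable

The main theorem is `Atlas.exists_representing`.
-/

set_option autoImplicit false

universe u

noncomputable section

open CategoryTheory CategoryTheory.Limits AlgebraicGeometry NeronModelInfra

namespace Fermat.Agent.Jac

variable {S : Scheme.{u}}

/-! ### Atlases -/

/-- Composition of morphisms over `S`. -/
def homComp {T T' T'' : Scheme.{u}} {t : T ⟶ S} {t' : T' ⟶ S} {t'' : T'' ⟶ S}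
    (h : SchemeHomOver t'' t') (g : SchemeHomOver t' t) : SchemeHomOver t'' t :=
  ⟨h.1 ≫ g.1, by rw [Category.assoc, g.2, h.2]⟩

/-- The inclusion of an open subscheme over `S`. -/
def openHom {T : Scheme.{u}} (t : T ⟶ S) (U : T.Opens) : SchemeHomOver (U.ι ≫ t) t := ⟨U.ι, rfl⟩

/-- A sheaf on schemes over `S` with open representable subfunctors covering it. -/
structure Atlas (S : Scheme.{u}) : Type (u + 2) where
  /-- the functor -/
  G : ∀ {T : Scheme.{u}}, (T ⟶ S) → Type (u + 1)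
  /-- its functoriality -/
  map : ∀ {T T' : Scheme.{u}} {t : T ⟶ S} {t' : T' ⟶ S}, SchemeHomOver t' t → G t → G t'
  map_id : ∀ {T : Scheme.{u}} {t : T ⟶ S} (x : G t), map ⟨𝟙 T, Category.id_comp t⟩ x = x
  map_comp : ∀ {T T' T'' : Scheme.{u}} {t : T ⟶ S} {t' : T' ⟶ S} {t'' : T'' ⟶ S}
    (h : SchemeHomOver t'' t') (g : SchemeHomOver t' t) (x : G t),
      map (homComp h g) x = map h (map g x)
  sep : ∀ {T : Scheme.{u}} {t : T ⟶ S} {ι : Type u} (U : ι → T.Opens), (⨆ a, U a) = ⊤ →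
    ∀ x y : G t, (∀ a, map (openHom t (U a)) x = map (openHom t (U a)) y) → x = y
  glue : ∀ {T : Scheme.{u}} {t : T ⟶ S} {ι : Type u} (U : ι → T.Opens), (⨆ a, U a) = ⊤ →
    ∀ x : ∀ a, G ((U a).ι ≫ t),
      (∀ (a b : ι) (T' : Scheme.{u}) (t' : T' ⟶ S) (h : SchemeHomOver t' ((U a).ι ≫ t))
        (h' : SchemeHomOver t' ((U b).ι ≫ t)), h.1 ≫ (U a).ι = h'.1 ≫ (U b).ι →
          map h (x a) = map h' (x b)) →
      ∃ y : G t, ∀ a, map (openHom t (U a)) y = x a
  /-- the charts -/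
  ι : Type u
  X : ι → Scheme.{u}
  x : ∀ i, X i ⟶ S
  ξ : ∀ i, G (x i)
  mono : ∀ (i : ι) {T : Scheme.{u}} (t : T ⟶ S) (g g' : SchemeHomOver t (x i)),
    map g (ξ i) = map g' (ξ i) → g = g'
  isOpen : ∀ (i : ι) {T : Scheme.{u}} (t : T ⟶ S) (ζ : G t), ∃ W : T.Opens,
    ∀ (T' : Scheme.{u}) (t' : T' ⟶ S) (h : SchemeHomOver t' t),
      Set.range h.1.base ⊆ W ↔ ∃ g : SchemeHomOver t' (x i), map g (ξ i) = map h ζ
  cover : ∀ {T : Scheme.{u}} (t : T ⟶ S) (ζ : G t) (p : T), ∃ (i : ι) (U : T.Opens)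
    (g : SchemeHomOver (U.ι ≫ t) (x i)), p ∈ U ∧ map g (ξ i) = map (openHom t U) ζ

namespace Atlas

variable (A : Atlas S)

/-- Pull-back of the elements of the functor is compatible with composition. -/
theorem map_map {T T' T'' : Scheme.{u}} {t : T ⟶ S} {t' : T' ⟶ S} {t'' : T'' ⟶ S}
    (h : SchemeHomOver t'' t') (g : SchemeHomOver t' t) (x : A.G t) :
    A.map h (A.map g x) = A.map ⟨h.1 ≫ g.1, by rw [Category.assoc, g.2, h.2]⟩ x :=
  (A.map_comp h g x).symm

theorem map_congr {T T' : Scheme.{u}} {t : T ⟶ S} {t' : T' ⟶ S} {g g' : SchemeHomOver t' t}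
    (h : g.1 = g'.1) (x : A.G t) : A.map g x = A.map g' x := by
  rw [Subtype.ext h]

/-! ### Related maps to charts -/

/-- Two maps to charts pulling the universal elements back to the same element. -/
def Rel {T : Scheme.{u}} {i j : A.ι} (a : T ⟶ A.X i) (b : T ⟶ A.X j) : Prop :=
  ∃ h : b ≫ A.x j = a ≫ A.x i, A.map ⟨b, h⟩ (A.ξ j) = A.map ⟨a, rfl⟩ (A.ξ i)

variable {A}

/-- Maps to two charts that pull the universal elements back to the same element are related. -/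
theorem Rel.mk {T : Scheme.{u}} {t : T ⟶ S} {i j : A.ι} (a : SchemeHomOver t (A.x i))
    (b : SchemeHomOver t (A.x j)) (h : A.map b (A.ξ j) = A.map a (A.ξ i)) : A.Rel a.1 b.1 := by
  obtain ⟨a, rfl⟩ := a
  exact ⟨b.2, h⟩

theorem Rel.map_eq {T : Scheme.{u}} {t : T ⟶ S} {i j : A.ι} {a : SchemeHomOver t (A.x i)}
    {b : SchemeHomOver t (A.x j)} (h : A.Rel a.1 b.1) : A.map b (A.ξ j) = A.map a (A.ξ i) := by
  obtain ⟨a, rfl⟩ := a
  obtain ⟨_, h⟩ := h
  exact h

/-- The relation between maps to charts is reflexive. -/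
theorem Rel.refl {T : Scheme.{u}} {i : A.ι} (a : T ⟶ A.X i) : A.Rel a a := ⟨rfl, rfl⟩

/-- The relation between maps to charts is symmetric. -/
theorem Rel.symm {T : Scheme.{u}} {i j : A.ι} {a : T ⟶ A.X i} {b : T ⟶ A.X j} (h : A.Rel a b) :
    A.Rel b a := by
  obtain ⟨e, h⟩ := h
  exact Rel.mk (⟨b, e⟩ : SchemeHomOver (a ≫ A.x i) (A.x j)) ⟨a, rfl⟩ h.symm

/-- The relation between maps to charts is transitive. -/
theorem Rel.trans {T : Scheme.{u}} {i j l : A.ι} {a : T ⟶ A.X i} {b : T ⟶ A.X j} {d : T ⟶ A.X l}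
    (h : A.Rel a b) (h' : A.Rel b d) : A.Rel a d := by
  obtain ⟨e, h⟩ := h
  obtain ⟨e', -⟩ := id h'
  exact ⟨e'.trans e,
    (h'.map_eq (a := (⟨b, e⟩ : SchemeHomOver (a ≫ A.x i) (A.x j))) (b := ⟨d, e'.trans e⟩)).trans h⟩

/-- The relation between maps to charts is stable under composition. -/
theorem Rel.comp {T T' : Scheme.{u}} (γ : T' ⟶ T) {i j : A.ι} {a : T ⟶ A.X i} {b : T ⟶ A.X j}
    (h : A.Rel a b) : A.Rel (γ ≫ a) (γ ≫ b) := by
  obtain ⟨e, h⟩ := h
  have := congrArg (A.map (⟨γ, rfl⟩ : SchemeHomOver (γ ≫ a ≫ A.x i) (a ≫ A.x i))) h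
  rw [map_map, map_map] at this
  exact Rel.mk (⟨γ ≫ a, Category.assoc _ _ _⟩ : SchemeHomOver (γ ≫ a ≫ A.x i) (A.x i))
    ⟨γ ≫ b, by rw [Category.assoc, e]⟩ this

theorem Rel.eq {T : Scheme.{u}} {i : A.ι} {a b : T ⟶ A.X i} (h : A.Rel a b) : a = b := by
  obtain ⟨e, h⟩ := h
  exact (congrArg Subtype.val
    (A.mono i _ (⟨b, e⟩ : SchemeHomOver (a ≫ A.x i) (A.x i)) ⟨a, rfl⟩ h)).symm

/-- A map to a chart is related to at most one map to another chart. -/
theorem Rel.unique {T : Scheme.{u}} {i j : A.ι} {a : T ⟶ A.X i} {b b' : T ⟶ A.X j} (h : A.Rel a b)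
    (h' : A.Rel a b') : b = b' := (h.symm.trans h').eq

variable (A)

/-! ### Gluing the charts -/

/-- The part of chart `i` lying in chart `j`. -/
def W (i j : A.ι) : (A.X i).Opens := (A.isOpen j (A.x i) (A.ξ i)).choose

theorem range_subset_W_iff {i j : A.ι} {T : Scheme.{u}} (a : T ⟶ A.X i) :
    Set.range a.base ⊆ A.W i j ↔ ∃ b : T ⟶ A.X j, A.Rel a b := by
  refine ((A.isOpen j (A.x i) (A.ξ i)).choose_spec T (a ≫ A.x i) ⟨a, rfl⟩).trans ⟨?_, ?_⟩
  · rintro ⟨g, hg⟩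
    exact ⟨g.1, g.2, hg⟩
  · rintro ⟨b, e, h⟩
    exact ⟨⟨b, e⟩, h⟩

theorem exists_gmap (i j : A.ι) : ∃ b : (A.W i j).toScheme ⟶ A.X j, A.Rel (A.W i j).ι b :=
  (A.range_subset_W_iff (A.W i j).ι).mp (by rw [Scheme.Opens.range_ι])

/-- The map from the overlap to the other chart. -/
def gmap (i j : A.ι) : (A.W i j).toScheme ⟶ A.X j := (A.exists_gmap i j).choose

theorem rel_gmap (i j : A.ι) : A.Rel (A.W i j).ι (A.gmap i j) := (A.exists_gmap i j).choose_spec

theorem range_gmap (i j : A.ι) : Set.range (A.gmap i j).base ⊆ A.W j i :=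
  (A.range_subset_W_iff _).mpr ⟨_, (A.rel_gmap i j).symm⟩

/-- The transition map. -/
def tr (i j : A.ι) : (A.W i j).toScheme ⟶ (A.W j i).toScheme :=
  IsOpenImmersion.lift (A.W j i).ι (A.gmap i j)
    (by rw [Scheme.Opens.range_ι]; exact A.range_gmap i j)

theorem tr_ι (i j : A.ι) : A.tr i j ≫ (A.W j i).ι = A.gmap i j := IsOpenImmersion.lift_fac _ _ _

theorem rel_fst (i j k : A.ι) :
    A.Rel (pullback.fst (A.W i j).ι (A.W i k).ι ≫ A.gmap i j)
      (pullback.snd (A.W i j).ι (A.W i k).ι ≫ A.gmap i k) := by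
  refine ((A.rel_gmap i j).comp _).symm.trans ?_
  rw [pullback.condition]
  exact (A.rel_gmap i k).comp _

theorem range_fst (i j k : A.ι) :
    Set.range (pullback.fst (A.W i j).ι (A.W i k).ι ≫ A.gmap i j).base ⊆ A.W j k :=
  (A.range_subset_W_iff _).mpr ⟨_, A.rel_fst i j k⟩

/-- The cocycle map. -/
def tr' (i j k : A.ι) :
    pullback (A.W i j).ι (A.W i k).ι ⟶ pullback (A.W j k).ι (A.W j i).ι :=
  pullback.lift
    (IsOpenImmersion.lift (A.W j k).ι (pullback.fst _ _ ≫ A.gmap i j)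
      (by rw [Scheme.Opens.range_ι]; exact A.range_fst i j k))
    (pullback.fst _ _ ≫ A.tr i j)
    (by rw [IsOpenImmersion.lift_fac, Category.assoc, tr_ι])

theorem rel_tr' (i j k : A.ι) :
    A.Rel (pullback.fst (A.W i j).ι (A.W i k).ι ≫ (A.W i j).ι)
      (A.tr' i j k ≫ pullback.fst _ _ ≫ (A.W j k).ι) := by
  rw [tr', ← Category.assoc (pullback.lift _ _ _), pullback.lift_fst, IsOpenImmersion.lift_fac]
  exact (A.rel_gmap i j).comp _

theorem isIso_W_ι (i : A.ι) : IsIso (A.W i i).ι := by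
  have h : A.W i i = ⊤ := by
    have h := (A.range_subset_W_iff (j := i) (𝟙 (A.X i))).mpr ⟨𝟙 _, Rel.refl _⟩
    refine top_unique fun x _ => h ⟨x, rfl⟩
  rw [h]
  exact (Scheme.topIso (A.X i)).isIso_hom

/-- The gluing data of an atlas. -/
def glueData : Scheme.GlueData.{u} where
  J := A.ι
  U := A.X
  V p := (A.W p.1 p.2).toScheme
  f i j := (A.W i j).ι
  f_id := A.isIso_W_ι
  t := A.tr
  t_id i := by
    rw [← cancel_mono (A.W i i).ι, Category.id_comp, tr_ι]
    exact ((A.rel_gmap i i).eq).symm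
  t' := A.tr'
  t_fac i j k := pullback.lift_snd _ _ _
  cocycle i j k := by
    rw [← cancel_mono (pullback.fst (A.W i j).ι (A.W i k).ι),
      ← cancel_mono (A.W i j).ι, Category.id_comp, Category.assoc, Category.assoc, Category.assoc]
    refine (Rel.eq ?_).symm
    refine ((A.rel_tr' i j k).trans ((A.rel_tr' j k i).comp (A.tr' i j k))).trans ?_
    exact ((A.rel_tr' k i j).comp (A.tr' j k i)).comp (A.tr' i j k)
  f_open i j := inferInstanceAs (IsOpenImmersion (A.W i j).ι)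

/-- A chart of the glued scheme. -/
def chart (i : A.ι) : A.X i ⟶ A.glueData.glued := A.glueData.ι i

instance (i : A.ι) : IsOpenImmersion (A.chart i) :=
  inferInstanceAs (IsOpenImmersion (A.glueData.ι i))

theorem rel_iff {T : Scheme.{u}} {i j : A.ι} (a : T ⟶ A.X i) (b : T ⟶ A.X j) :
    A.Rel a b ↔ a ≫ A.chart i = b ≫ A.chart j := by
  constructor
  · intro h
    obtain ⟨c, hc⟩ : ∃ c : T ⟶ (A.W i j).toScheme, c ≫ (A.W i j).ι = a :=
      ⟨IsOpenImmersion.lift (A.W i j).ι a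
        (by rw [Scheme.Opens.range_ι]; exact (A.range_subset_W_iff a).mpr ⟨b, h⟩),
        IsOpenImmersion.lift_fac _ _ _⟩
    subst hc
    rw [h.unique ((A.rel_gmap i j).comp c), ← tr_ι, Category.assoc, Category.assoc,
      Category.assoc]
    exact congrArg (c ≫ ·) (A.glueData.glue_condition i j).symm
  · intro h
    obtain ⟨c, hc, hc'⟩ := PullbackCone.IsLimit.lift' (A.glueData.vPullbackConeIsLimit i j) a b h
    rw [← hc, ← hc']
    have key : ∀ c' : T ⟶ (A.W i j).toScheme,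
        A.Rel (c' ≫ (A.W i j).ι) (c' ≫ A.tr i j ≫ (A.W j i).ι) := fun c' => by
      rw [tr_ι]; exact (A.rel_gmap i j).comp c'
    exact key c

/-- The structure morphism of the glued scheme. -/
def toBase : A.glueData.glued ⟶ S :=
  A.glueData.openCover.glueMorphisms A.x fun i j => by
    obtain ⟨h, -⟩ := (A.rel_iff (pullback.fst (A.chart i) (A.chart j)) (pullback.snd _ _)).mpr
      pullback.condition
    exact h.symm

theorem chart_toBase (i : A.ι) : A.chart i ≫ A.toBase = A.x i :=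
  A.glueData.openCover.ι_glueMorphisms _ _ i

/-! ### The universal element -/

theorem exists_universal : ∃ P : A.G A.toBase,
    ∀ i, A.map (⟨A.chart i, A.chart_toBase i⟩ : SchemeHomOver (A.x i) A.toBase) P = A.ξ i := by
  let U : A.ι → A.glueData.glued.Opens := fun i => (A.chart i).opensRange
  have hU : (⨆ i, U i) = ⊤ := by
    refine top_unique fun x _ => ?_
    obtain ⟨i, y, hy⟩ := A.glueData.ι_jointly_surjective x
    exact TopologicalSpace.Opens.mem_iSup.mpr ⟨i, y, hy⟩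
  let e : ∀ i, A.X i ≅ (U i).toScheme := fun i =>
    IsOpenImmersion.isoOfRangeEq (A.chart i) (U i).ι (by rw [Scheme.Opens.range_ι]; rfl)
  have he : ∀ i, (e i).inv ≫ A.chart i = (U i).ι := fun i =>
    IsOpenImmersion.isoOfRangeEq_inv_fac _ _ _
  have hx : ∀ i, (e i).inv ≫ A.x i = (U i).ι ≫ A.toBase := fun i => by
    rw [← he i, Category.assoc, chart_toBase]
  obtain ⟨P, hP⟩ := A.glue U hU (fun i => A.map ⟨(e i).inv, hx i⟩ (A.ξ i))
    fun a b T' t' h h' hh => by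
      rw [map_map, map_map]
      refine (Rel.map_eq ((A.rel_iff _ _).mpr ?_)).symm
      rw [Category.assoc, Category.assoc, he, he]
      exact hh
  refine ⟨P, fun i => ?_⟩
  have hι : (e i).hom ≫ (U i).ι = A.chart i := by rw [← he, Iso.hom_inv_id_assoc]
  have h := congrArg (A.map (⟨(e i).hom, by rw [← Category.assoc, hι, chart_toBase]⟩ :
    SchemeHomOver (A.x i) ((U i).ι ≫ A.toBase))) (hP i)
  rw [map_map, map_map, map_congr A (g' := ⟨𝟙 (A.X i), Category.id_comp _⟩) (e i).hom_inv_id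
    (A.ξ i), A.map_id] at h
  exact (map_congr A (g' := ⟨(e i).hom ≫ (U i).ι, by rw [hι, chart_toBase]⟩) hι.symm P).trans h

variable {A}

theorem eq_of_map_eq (P : A.G A.toBase)
    (hP : ∀ i, A.map (⟨A.chart i, A.chart_toBase i⟩ : SchemeHomOver (A.x i) A.toBase) P = A.ξ i)
    {T : Scheme.{u}} {t : T ⟶ S} (g g' : SchemeHomOver t A.toBase)
    (h : A.map g P = A.map g' P) : g = g' := by
  let U : A.ι × A.ι → T.Opens := fun p =>
    g.1 ⁻¹ᵁ (A.chart p.1).opensRange ⊓ g'.1 ⁻¹ᵁ (A.chart p.2).opensRange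
  have hU : (⨆ p, U p) = ⊤ := by
    refine top_unique fun x _ => ?_
    obtain ⟨i, y, hy⟩ := A.glueData.ι_jointly_surjective (g.1.base x)
    obtain ⟨j, z, hz⟩ := A.glueData.ι_jointly_surjective (g'.1.base x)
    exact TopologicalSpace.Opens.mem_iSup.mpr ⟨(i, j), ⟨y, hy⟩, ⟨z, hz⟩⟩
  refine Subtype.ext ((Scheme.openCoverOfIsOpenCover _ U hU).hom_ext _ _ fun p => ?_)
  show (U p).ι ≫ g.1 = (U p).ι ≫ g'.1
  obtain ⟨i, j⟩ := p
  have hsub : ∀ y, (U (i, j)).ι.base y ∈ U (i, j) := fun y => y.2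
  have ha : Set.range ((U (i, j)).ι ≫ g.1).base ⊆ Set.range (A.chart i).base := by
    rintro _ ⟨y, rfl⟩
    exact (hsub y).1
  have hb : Set.range ((U (i, j)).ι ≫ g'.1).base ⊆ Set.range (A.chart j).base := by
    rintro _ ⟨y, rfl⟩
    exact (hsub y).2
  rw [← IsOpenImmersion.lift_fac _ _ ha, ← IsOpenImmersion.lift_fac _ _ hb]
  have ha' : IsOpenImmersion.lift (A.chart i) _ ha ≫ A.x i = (U (i, j)).ι ≫ t := by
    rw [← A.chart_toBase i, ← Category.assoc, IsOpenImmersion.lift_fac, Category.assoc, g.2]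
  have hb' : IsOpenImmersion.lift (A.chart j) _ hb ≫ A.x j = (U (i, j)).ι ≫ t := by
    rw [← A.chart_toBase j, ← Category.assoc, IsOpenImmersion.lift_fac, Category.assoc, g'.2]
  refine (A.rel_iff _ _).mp (Rel.mk ⟨_, ha'⟩ ⟨_, hb'⟩ ?_)
  have h1 := congrArg (A.map (openHom t (U (i, j)))) h
  rw [map_map, map_map] at h1
  rw [← hP i, ← hP j, map_map, map_map]
  refine (map_congr A ?_ P).trans (h1.symm.trans (map_congr A ?_ P))
  · exact IsOpenImmersion.lift_fac _ _ hb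
  · exact (IsOpenImmersion.lift_fac _ _ ha).symm

theorem exists_map_eq (P : A.G A.toBase)
    (hP : ∀ i, A.map (⟨A.chart i, A.chart_toBase i⟩ : SchemeHomOver (A.x i) A.toBase) P = A.ξ i)
    {T : Scheme.{u}} (t : T ⟶ S) (ζ : A.G t) : ∃ g : SchemeHomOver t A.toBase, A.map g P = ζ := by
  choose i U g hmem hg using A.cover t ζ
  have hU : (⨆ p, U p) = ⊤ :=
    top_unique fun x _ => TopologicalSpace.Opens.mem_iSup.mpr ⟨x, hmem x⟩
  let 𝒰 := Scheme.openCoverOfIsOpenCover _ U hU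
  have hcomp : ∀ p q : T, pullback.fst (U p).ι (U q).ι ≫ (g p).1 ≫ A.chart (i p) =
      pullback.snd (U p).ι (U q).ι ≫ (g q).1 ≫ A.chart (i q) := by
    intro p q
    rw [← Category.assoc, ← Category.assoc, ← A.rel_iff]
    have hc : pullback.fst (U p).ι (U q).ι ≫ (U p).ι = pullback.snd (U p).ι (U q).ι ≫ (U q).ι :=
      pullback.condition
    refine Rel.mk (t := pullback.fst (U p).ι (U q).ι ≫ (U p).ι ≫ t)
      ⟨_, by rw [Category.assoc, (g p).2]⟩
      ⟨_, by rw [Category.assoc, (g q).2, ← Category.assoc, ← hc, Category.assoc]⟩ ?_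
    have hp := congrArg (A.map (⟨pullback.fst (U p).ι (U q).ι, rfl⟩ :
      SchemeHomOver (pullback.fst (U p).ι (U q).ι ≫ (U p).ι ≫ t) ((U p).ι ≫ t))) (hg p)
    have hq := congrArg (A.map (⟨pullback.snd (U p).ι (U q).ι, by
      rw [← Category.assoc, ← hc, Category.assoc]⟩ :
      SchemeHomOver (pullback.fst (U p).ι (U q).ι ≫ (U p).ι ≫ t) ((U q).ι ≫ t))) (hg q)
    rw [map_map, map_map] at hp hq
    exact hq.trans ((map_congr A hc.symm ζ).trans hp.symm)
  let G := 𝒰.glueMorphisms (fun p : T => (g p).1 ≫ A.chart (i p)) (fun p q => hcomp p q)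
  have hG : ∀ p, (U p).ι ≫ G = (g p).1 ≫ A.chart (i p) := fun p => 𝒰.ι_glueMorphisms _ _ p
  have hGt : G ≫ A.toBase = t := 𝒰.hom_ext _ _ fun p => by
    show (U p).ι ≫ G ≫ A.toBase = (U p).ι ≫ t
    rw [← Category.assoc, hG, Category.assoc, chart_toBase]
    exact (g p).2
  refine ⟨⟨G, hGt⟩, A.sep U hU _ _ fun p => ?_⟩
  rw [map_map, ← hg p, ← hP (i p), map_map]
  exact map_congr A (hG p) P

end Atlas

/-- The functor of an atlas is represented by a scheme containing the charts as an open cover. -/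
theorem Atlas.exists_representing (A : Atlas S) :
    ∃ (J : Scheme.{u}) (f : J ⟶ S) (P : A.G f),
      (∀ {T : Scheme.{u}} (t : T ⟶ S) (ζ : A.G t), ∃! g : SchemeHomOver t f, A.map g P = ζ) ∧
      ∃ e : ∀ i, SchemeHomOver (A.x i) f, (∀ i, IsOpenImmersion (e i).1) ∧
        (∀ i, A.map (e i) P = A.ξ i) ∧
        (⋃ i, Set.range (e i).1.base) = Set.univ := by
  obtain ⟨P, hP⟩ := A.exists_universal
  refine ⟨A.glueData.glued, A.toBase, P, fun t ζ => ?_,
    fun i => ⟨A.chart i, A.chart_toBase i⟩, fun i => inferInstanceAs (IsOpenImmersion (A.chart i)),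
    hP, Set.eq_univ_of_forall fun x => ?_⟩
  · obtain ⟨g, hg⟩ := Atlas.exists_map_eq P hP t ζ
    exact ⟨g, hg, fun g' hg' => Atlas.eq_of_map_eq P hP g' g (hg'.trans hg.symm)⟩
  · obtain ⟨i, y, hy⟩ := A.glueData.ι_jointly_surjective x
    exact Set.mem_iUnion.mpr ⟨i, y, hy⟩

end Fermat.Agent.Jac

end
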