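import Fermat.Agent.Jac.Scheme.Atlas
import Fermat.Agent.Jac.ModGlue.Glue
import Fermat.Agent.Jac.ModGlue.Transport

/-!
# Rigidified line bundles form a Zariski sheaf

These are `classes_eq_of_locally` and `exists_classes_glue`.
-/

set_option autoImplicit false

universe u

noncomputable section

open CategoryTheory CategoryTheory.Limits AlgebraicGeometry AlgebraicGeometry.RelPicard
  NeronModelInfra
open Fermat.Agent.Jac.ModGlue

namespace Fermat.Agent.Jac

variable {k : Type u} [Field k] {C : Scheme.{u}} (c : C ⟶ Spec (CommRingCat.of k))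
  (ε : SchemeHomOver (𝟙 (Spec (CommRingCat.of k))) c)

/-! ### Rigidifications and uniqueness -/

/-- Rigidified bundles have no automorphisms, over affine bases. -/
def AffineRigid : Prop :=
  ∀ (R : Type u) [CommRing R] (t : Spec (CommRingCat.of R) ⟶ Spec (CommRingCat.of k))
    (M : RigidifiedLineBundle c ε t) (e : M.L ≅ M.L),
    (Scheme.Modules.pullback (rigSection c t ε)).map e.hom = 𝟙 _ → e = Iso.refl M.L

variable {c ε}

section Base

variable {T T' : Scheme.{u}} {t : T ⟶ Spec (CommRingCat.of k)} {t' : T' ⟶ Spec (CommRingCat.of k)}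

theorem isPullback_baseChangeSnd (h : SchemeHomOver t' t) :
    IsPullback (baseChangeSnd c h) (pullback.snd c t') (pullback.snd c t) h.1 := by
  refine IsPullback.of_right ?_ ?_ (IsPullback.of_hasPullback c t)
  · have e1 : baseChangeSnd c h ≫ pullback.fst c t = pullback.fst c t' :=
      (pullback.lift_fst _ _ _).trans (Category.comp_id _)
    rw [e1, h.2]
    exact IsPullback.of_hasPullback c t'
  · exact pullback.lift_snd _ _ _

theorem isOpenImmersion_baseChangeSnd (h : SchemeHomOver t' t) [IsOpenImmersion h.1] :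
    IsOpenImmersion (baseChangeSnd c h) :=
  MorphismProperty.of_isPullback (isPullback_baseChangeSnd h).flip ‹IsOpenImmersion h.1›

theorem opensRange_baseChangeSnd (h : SchemeHomOver t' t) [IsOpenImmersion h.1]
    [IsOpenImmersion (baseChangeSnd c h)] :
    (baseChangeSnd c h).opensRange = pullback.snd c t ⁻¹ᵁ h.1.opensRange := by
  refine TopologicalSpace.Opens.ext ?_
  show Set.range (baseChangeSnd c h).base = (pullback.snd c t).base ⁻¹' Set.range h.1.base
  rw [← (isPullback_baseChangeSnd h).isoPullback_hom_fst, Scheme.Hom.comp_base, TopCat.coe_comp,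
    Set.range_comp, Set.range_eq_univ.2 (isPullback_baseChangeSnd h).isoPullback.hom.surjective,
    Set.image_univ]
  exact IsOpenImmersion.range_pullbackFst _ _

theorem rigSection_snd : rigSection c t ε ≫ pullback.snd c t = 𝟙 T :=
  pullback.lift_snd _ _ _

/-- The rigidification of a bundle on sections. -/
def rigHom (M : RigidifiedLineBundle c ε t) : M.L ⟶ sO (rigSection c t ε) :=
  (Scheme.Modules.pullbackPushforwardAdjunction
    (rigSection c t ε)).homEquiv M.L _ M.rigidified.some.hom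

theorem isRig_rigHom (M : RigidifiedLineBundle c ε t) (V : (pullback c t).Opens) :
    IsRig (LocalHom.ofHom V (rigHom M)) :=
  have : IsIso (C := T.Modules) M.rigidified.some.hom := Iso.isIso_hom _
  isRig_of_pullback _

/-- Bundles with a rigidification on sections have no automorphisms respecting it. -/
theorem localIso_unique (hrigid : AffineRigid c ε) {U₀ : T.Opens} {P Q : (pullback c t).Modules}
    (hP : HasGens (pullback.snd c t ⁻¹ᵁ U₀) P)
    {ψ : LocalHom (pullback.snd c t ⁻¹ᵁ U₀) P (sO (rigSection c t ε))} (hψ : IsRig ψ)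
    {ψ' : LocalHom (pullback.snd c t ⁻¹ᵁ U₀) Q (sO (rigSection c t ε))}
    (θ₁ θ₂ : LocalIso (pullback.snd c t ⁻¹ᵁ U₀) P Q)
    (h₁ : θ₁.hom.comp ψ' = ψ) (h₂ : θ₂.hom.comp ψ' = ψ) : θ₁.hom = θ₂.hom := by
  -- `θ₁ θ₂⁻¹` fixes `ψ`; it suffices that it is the identity over affine opens of the base.
  set E := θ₁.trans θ₂.symm with hE
  have hfix : E.hom.comp ψ = ψ := by
    show (θ₁.hom.comp θ₂.inv).comp ψ = ψ
    conv_lhs => rw [← h₂]
    rw [LocalHom.comp_assoc, ← LocalHom.comp_assoc θ₂.inv, θ₂.inv_hom_id, LocalHom.id_comp, h₁]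
  suffices hid : E.hom = LocalHom.id _ P by
    rw [← LocalHom.comp_id θ₁.hom, ← θ₂.inv_hom_id, ← LocalHom.comp_assoc,
      show θ₁.hom.comp θ₂.inv = E.hom from rfl, hid, LocalHom.id_comp]
  have hex : ∀ p : {p : T // p ∈ U₀}, ∃ A : T.Opens, IsAffineOpen A ∧ p.1 ∈ A ∧
      A ≤ U₀ := fun p => by
    obtain ⟨A, hA, hpA, hAU⟩ := exists_isAffineOpen_mem_and_subset p.2
    exact ⟨A, hA, hpA, hAU⟩
  choose A hA hpA hAU using hex
  refine LocalHom.eq_of_cover (fun p => pullback.snd c t ⁻¹ᵁ A p)
    (fun p => (pullback.snd c t).preimage_mono (hAU p))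
    (fun x hx => TopologicalSpace.Opens.mem_iSup.2 ⟨⟨_, hx⟩, hpA ⟨_, hx⟩⟩) fun p => ?_
  let h : SchemeHomOver ((hA p).fromSpec ≫ t) t := ⟨(hA p).fromSpec, rfl⟩
  have : IsOpenImmersion h.1 := (hA p).isOpenImmersion_fromSpec
  have := isOpenImmersion_baseChangeSnd (c := c) h
  let g := baseChangeSnd c h
  have hgA : g.opensRange = pullback.snd c t ⁻¹ᵁ A p := by
    rw [opensRange_baseChangeSnd h]
    exact congrArg _ (hA p).opensRange_fromSpec
  have hg : g.opensRange ≤ pullback.snd c t ⁻¹ᵁ U₀ :=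
    hgA.le.trans ((pullback.snd c t).preimage_mono (hAU p))
  have hsq := rigSection_baseChangeSnd c ε h
  let ψ₀ := restrictRig g h.1 hsq hg ψ
  have hgens := hP.restrict g hg
  have hψ₀ : IsRig ψ₀ := isRig_restrictRig g h.1 hsq hg hψ
  have := isIso_of_isRig hgens ψ₀.toHom hψ₀
  let r : (Scheme.Modules.pullback (rigSection c ((hA p).fromSpec ≫ t) ε)).obj (P.restrict g) ⟶
      oMod (Spec Γ(T, A p)) :=
    ((Scheme.Modules.pullbackPushforwardAdjunction _).homEquiv _ _).symm ψ₀.toHom
  -- There it is an automorphism of a rigidified bundle, hence trivial by rigidity.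
  let M : RigidifiedLineBundle c ε ((hA p).fromSpec ≫ t) :=
    { L := P.restrict g
      isInvertible := isInvertible_of_hasGens hgens
      rigidified := ⟨asIso r⟩ }
  let e := restrictIso g hg E
  have he : (LocalHom.ofHom ⊤ e.hom).comp ψ₀ = ψ₀ := LocalHom.ext_app fun W _ s => by
    show oSec (h.1.appLE _ _ (preimage_comm g h.1 hsq W) (val ψ (g ''ᵁ W)
      ((g.image_le_opensRange _).trans hg)
        (E.hom.app (g ''ᵁ W) ((g.image_le_opensRange _).trans hg) s))) = _
    exact congrArg (fun v => oSec (h.1.appLE _ _ (preimage_comm g h.1 hsq W) v))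
      (congr(($hfix).app (g ''ᵁ W) ((g.image_le_opensRange _).trans hg) s))
  have hrefl := hrigid Γ(T, A p) ((hA p).fromSpec ≫ t) M e
    (pullback_map_eq_id_of_isRig hgens hψ₀ he)
  refine LocalHom.ext_app fun W hW s => ?_
  have hWg : W ≤ g ''ᵁ (g ⁻¹ᵁ W) := by
    rw [g.image_preimage_eq_opensRange_inf]
    exact le_inf (hW.trans hgA.ge) le_rfl
  have hpt : ∀ z : Γ(P, g ''ᵁ (g ⁻¹ᵁ W)),
      E.hom.app (g ''ᵁ (g ⁻¹ᵁ W)) ((g.image_le_opensRange _).trans hg) z = z := fun z =>
    congr(Scheme.Modules.Hom.app (Iso.hom $hrefl) (g ⁻¹ᵁ W) z)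
  have hs := congrArg (mres P hWg) (hpt (mres P (g.image_preimage_le W) s))
  rw [← E.hom.naturality _ _ hWg ((g.image_le_opensRange _).trans hg), mres_mres, mres_self] at hs
  exact hs

/-- An isomorphism can be corrected to respect the rigidifications. -/
theorem exists_normalisedIso (hrigid : AffineRigid c ε) {U₀ : T.Opens}
    {P Q : (pullback c t).Modules} (φ : LocalIso (pullback.snd c t ⁻¹ᵁ U₀) P Q)
    (hP : HasGens (pullback.snd c t ⁻¹ᵁ U₀) P)
    {ψ : LocalHom (pullback.snd c t ⁻¹ᵁ U₀) P (sO (rigSection c t ε))} (hψ : IsRig ψ)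
    {ψ' : LocalHom (pullback.snd c t ⁻¹ᵁ U₀) Q (sO (rigSection c t ε))} (hψ' : IsRig ψ') :
    ∃ θ : LocalIso (pullback.snd c t ⁻¹ᵁ U₀) P Q, θ.hom.comp ψ' = ψ := by
  choose U hU θ hyU hθ using fun y : {y : T // y ∈ U₀} =>
    exists_normalised rigSection_snd φ hP hψ hψ' y.2
  have hV : ∀ y, pullback.snd c t ⁻¹ᵁ U y ≤ pullback.snd c t ⁻¹ᵁ U₀ := fun y =>
    (pullback.snd c t).preimage_mono (hU y)
  have hcov : pullback.snd c t ⁻¹ᵁ U₀ ≤ ⨆ y, pullback.snd c t ⁻¹ᵁ U y := fun x hx =>
    TopologicalSpace.Opens.mem_iSup.2 ⟨⟨_, hx⟩, hyU ⟨_, hx⟩⟩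
  obtain ⟨Θ, hΘ⟩ := LocalIso.exists_glue (fun y => pullback.snd c t ⁻¹ᵁ U y) hV hcov θ fun i j => by
    have hle : pullback.snd c t ⁻¹ᵁ (U i ⊓ U j) ≤ pullback.snd c t ⁻¹ᵁ U₀ :=
      (pullback.snd c t).preimage_mono (inf_le_left.trans (hU i))
    have hi : pullback.snd c t ⁻¹ᵁ (U i ⊓ U j) ≤ pullback.snd c t ⁻¹ᵁ U i :=
      (pullback.snd c t).preimage_mono inf_le_left
    have hj : pullback.snd c t ⁻¹ᵁ (U i ⊓ U j) ≤ pullback.snd c t ⁻¹ᵁ U j :=
      (pullback.snd c t).preimage_mono inf_le_right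
    exact localIso_unique hrigid (U₀ := U i ⊓ U j) (hP.mono hle) (hψ.mono hle)
      (ψ' := ψ'.mono hle) ((θ i).mono hi) ((θ j).mono hj)
      (congrArg (LocalHom.mono hi) (hθ i)) (congrArg (LocalHom.mono hj) (hθ j))
  refine ⟨Θ, LocalHom.eq_of_cover _ hV hcov fun y => ?_⟩
  show (Θ.hom.mono (hV y)).comp (ψ'.mono (hV y)) = _
  rw [hΘ y]
  exact hθ y

end Base

/-! ### Locality -/

/-- If `AffineRigid` holds, classes of rigidified bundles are determined locally on the base. -/
theorem classes_eq_of_locally (hrigid : AffineRigid c ε) {T : Scheme.{u}}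
    {t : T ⟶ Spec (CommRingCat.of k)} {ι : Type u} (U : ι → T.Opens) (hU : (⨆ a, U a) = ⊤)
    (x y : RigidifiedLineBundle.Classes c ε t)
    (h : ∀ a, RigidifiedLineBundle.classesMap (openHom t (U a)) x =
      RigidifiedLineBundle.classesMap (openHom t (U a)) y) : x = y := by
  induction x using Quotient.ind with
  | _ M =>
  induction y using Quotient.ind with
  | _ N =>
  have hcov : (⊤ : (pullback c t).Opens) ≤ ⨆ a, pullback.snd c t ⁻¹ᵁ U a := fun z _ => by
    obtain ⟨a, ha⟩ := TopologicalSpace.Opens.mem_iSup.1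
      (hU ▸ trivial : pullback.snd c t z ∈ ⨆ a, U a)
    exact TopologicalSpace.Opens.mem_iSup.2 ⟨a, ha⟩
  have hθ : ∀ a, ∃ θ : LocalIso (pullback.snd c t ⁻¹ᵁ U a) M.L N.L,
      θ.hom.comp (LocalHom.ofHom _ (rigHom N)) = LocalHom.ofHom _ (rigHom M) := fun a => by
    have : IsOpenImmersion (openHom t (U a)).1 := inferInstanceAs (IsOpenImmersion (U a).ι)
    have := isOpenImmersion_baseChangeSnd (c := c) (openHom t (U a))
    obtain ⟨e⟩ := Quotient.exact (h a)
    let g := baseChangeSnd c (openHom t (U a))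
    let e' : M.L.restrict g ≅ N.L.restrict g :=
      (Scheme.Modules.restrictFunctorIsoPullback g).app M.L ≪≫ e ≪≫
        ((Scheme.Modules.restrictFunctorIsoPullback g).app N.L).symm
    let φ := ((LocalIso.ofIso g.opensRange ((Scheme.Modules.pushforwardId _).app M.L)).symm.trans
      (pushIso (𝟙 _) (𝟙 _) g g g (Category.comp_id g) (Category.comp_id g) e')).trans
        (LocalIso.ofIso g.opensRange ((Scheme.Modules.pushforwardId _).app N.L))
    have hle : pullback.snd c t ⁻¹ᵁ U a ≤ g.opensRange := by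
      rw [opensRange_baseChangeSnd]
      exact (pullback.snd c t).preimage_mono (Scheme.Opens.opensRange_ι (U a)).ge
    exact exists_normalisedIso hrigid (φ.mono hle) (hasGens_of_isInvertible M.isInvertible _)
      (isRig_rigHom M _) (isRig_rigHom N _)
  choose θ hθ using hθ
  obtain ⟨Θ, -⟩ := LocalIso.exists_glue (fun a => pullback.snd c t ⁻¹ᵁ U a) (fun _ => le_top) hcov θ
    fun a b => localIso_unique hrigid (U₀ := U a ⊓ U b)
      (hasGens_of_isInvertible M.isInvertible _) (isRig_rigHom M _)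
      (ψ' := LocalHom.ofHom _ (rigHom N))
      ((θ a).mono ((pullback.snd c t).preimage_mono inf_le_left))
      ((θ b).mono ((pullback.snd c t).preimage_mono inf_le_right))
      (congrArg (LocalHom.mono ((pullback.snd c t).preimage_mono inf_le_left)) (hθ a))
      (congrArg (LocalHom.mono ((pullback.snd c t).preimage_mono inf_le_right)) (hθ b))
  exact Quotient.sound ⟨Θ.toIso⟩


/-! ### Gluing -/

/-- The direct image along an open immersion is supported on its range. -/
private theorem bijective_mres_pushforward {X Y : Scheme.{u}} (f : X ⟶ Y) [IsOpenImmersion f]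
    (L : X.Modules) (W : Y.Opens) :
    Function.Bijective (mres ((Scheme.Modules.pushforward f).obj L)
      (inf_le_left : W ⊓ f.opensRange ≤ W)) := by
  have hle : f ⁻¹ᵁ W ≤ f ⁻¹ᵁ (W ⊓ f.opensRange) := fun z hz => ⟨hz, z, rfl⟩
  exact Function.bijective_iff_has_inverse.2 ⟨mres L hle,
    fun s => (mres_mres L _ _ s).trans (mres_self L le_rfl s),
    fun s => (mres_mres L _ _ s).trans (mres_self L le_rfl s)⟩

/-- The direct image of an invertible module along an open immersion has local generators on the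
range. -/
private theorem hasGens_pushforward {X Y : Scheme.{u}} (f : X ⟶ Y) [IsOpenImmersion f]
    {L : X.Modules} (hL : Scheme.Modules.IsInvertible L) :
    HasGens f.opensRange ((Scheme.Modules.pushforward f).obj L) := fun z hz => by
  obtain ⟨w, rfl⟩ := hz
  obtain ⟨U', hwU', ⟨e⟩⟩ := hL.exists_trivialization w
  obtain ⟨g, hg⟩ := exists_gen_of_iso (U'.ι ≫ f)
    ((Scheme.Modules.restrictFunctorComp U'.ι f).app ((Scheme.Modules.pushforward f).obj L) ≪≫
      (Scheme.Modules.restrictFunctor U'.ι).mapIso (pushforwardRestrict f L) ≪≫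
      (Scheme.Modules.restrictFunctorIsoPullback U'.ι).app L ≪≫ e)
  refine ⟨_, g, ⟨⟨w, hwU'⟩, rfl⟩, ?_, hg⟩
  rintro _ ⟨v, rfl⟩
  exact ⟨U'.ι v, rfl⟩

/-- The direct images of two bundles which agree on an overlap are identified there compatibly
with rigidifications. -/
private theorem exists_transition (hrigid : AffineRigid c ε) {T : Scheme.{u}}
    {t : T ⟶ Spec (CommRingCat.of k)} (A B : T.Opens)
    [IsOpenImmersion (baseChangeSnd c (openHom t A))]
    [IsOpenImmersion (baseChangeSnd c (openHom t B))] (M : RigidifiedLineBundle c ε (A.ι ≫ t))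
    (N : RigidifiedLineBundle c ε (B.ι ≫ t)) (h : SchemeHomOver ((A ⊓ B).ι ≫ t) (A.ι ≫ t))
    (h' : SchemeHomOver ((A ⊓ B).ι ≫ t) (B.ι ≫ t)) (hA : h.1 = T.homOfLE inf_le_left)
    (hB : h'.1 = T.homOfLE inf_le_right)
    (hmap : RigidifiedLineBundle.classesMap h (Quotient.mk _ M) =
      RigidifiedLineBundle.classesMap h' (Quotient.mk _ N))
    {ψ : LocalHom (pullback.snd c t ⁻¹ᵁ A)
      ((Scheme.Modules.pushforward (baseChangeSnd c (openHom t A))).obj M.L)
        (sO (rigSection c t ε))}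
    (hψ : IsRig ψ)
    {ψ' : LocalHom (pullback.snd c t ⁻¹ᵁ B)
      ((Scheme.Modules.pushforward (baseChangeSnd c (openHom t B))).obj N.L)
        (sO (rigSection c t ε))}
    (hψ' : IsRig ψ')
    (hgens : HasGens (pullback.snd c t ⁻¹ᵁ A)
      ((Scheme.Modules.pushforward (baseChangeSnd c (openHom t A))).obj M.L)) :
    ∃ θ : LocalIso (pullback.snd c t ⁻¹ᵁ A ⊓ pullback.snd c t ⁻¹ᵁ B)
      ((Scheme.Modules.pushforward (baseChangeSnd c (openHom t A))).obj M.L)
      ((Scheme.Modules.pushforward (baseChangeSnd c (openHom t B))).obj N.L),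
      θ.hom.comp (ψ'.mono inf_le_right) = ψ.mono inf_le_left := by
  -- On the overlap the classes agree, giving an isomorphism of the direct images.
  obtain ⟨e⟩ := Quotient.exact hmap
  have : IsOpenImmersion h.1 := hA ▸ inferInstanceAs (IsOpenImmersion (T.homOfLE inf_le_left))
  have : IsOpenImmersion h'.1 := hB ▸ inferInstanceAs (IsOpenImmersion (T.homOfLE inf_le_right))
  have : IsOpenImmersion (openHom t (A ⊓ B)).1 :=
    inferInstanceAs (IsOpenImmersion (A ⊓ B).ι)
  have := isOpenImmersion_baseChangeSnd (c := c) h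
  have := isOpenImmersion_baseChangeSnd (c := c) h'
  have := isOpenImmersion_baseChangeSnd (c := c) (openHom t (A ⊓ B))
  let e' : M.L.restrict (baseChangeSnd c h) ≅ N.L.restrict (baseChangeSnd c h') :=
    (Scheme.Modules.restrictFunctorIsoPullback _).app _ ≪≫ e ≪≫
      ((Scheme.Modules.restrictFunctorIsoPullback _).app _).symm
  have hj : baseChangeSnd c h ≫ baseChangeSnd c (openHom t A) =
      baseChangeSnd c (openHom t (A ⊓ B)) := by
    rw [baseChangeSnd_comp]
    exact congrArg (baseChangeSnd c)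
      (Subtype.ext ((congrArg (· ≫ A.ι) hA).trans (Scheme.homOfLE_ι T inf_le_left)))
  have hj' : baseChangeSnd c h' ≫ baseChangeSnd c (openHom t B) =
      baseChangeSnd c (openHom t (A ⊓ B)) := by
    rw [baseChangeSnd_comp]
    exact congrArg (baseChangeSnd c)
      (Subtype.ext ((congrArg (· ≫ B.ι) hB).trans (Scheme.homOfLE_ι T inf_le_right)))
  let φ := pushIso _ _ _ _ _ hj hj' e'
  have hle : pullback.snd c t ⁻¹ᵁ (A ⊓ B) ≤ (baseChangeSnd c (openHom t (A ⊓ B))).opensRange := by
    rw [opensRange_baseChangeSnd]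
    exact (pullback.snd c t).preimage_mono (Scheme.Opens.opensRange_ι _).ge
  have hl : pullback.snd c t ⁻¹ᵁ (A ⊓ B) ≤ pullback.snd c t ⁻¹ᵁ A :=
    (pullback.snd c t).preimage_mono inf_le_left
  have hr : pullback.snd c t ⁻¹ᵁ (A ⊓ B) ≤ pullback.snd c t ⁻¹ᵁ B :=
    (pullback.snd c t).preimage_mono inf_le_right
  -- Normalise it to respect the rigidifications.
  exact exists_normalisedIso hrigid (U₀ := A ⊓ B) (φ.mono hle) (hgens.mono hl)
    (hψ.mono hl) (hψ'.mono hr)

/-- Compatible classes on the members of a cover glue. -/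
theorem exists_classes_glue (hrigid : AffineRigid c ε) {T : Scheme.{u}}
    {t : T ⟶ Spec (CommRingCat.of k)} {ι : Type u} (U : ι → T.Opens) (hU : (⨆ a, U a) = ⊤)
    (x : ∀ a, RigidifiedLineBundle.Classes c ε ((U a).ι ≫ t))
    (hx : ∀ (a b : ι) (T' : Scheme.{u}) (t' : T' ⟶ Spec (CommRingCat.of k))
      (h : SchemeHomOver t' ((U a).ι ≫ t)) (h' : SchemeHomOver t' ((U b).ι ≫ t)),
      h.1 ≫ (U a).ι = h'.1 ≫ (U b).ι →
        RigidifiedLineBundle.classesMap h (x a) = RigidifiedLineBundle.classesMap h' (x b)) :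
    ∃ y : RigidifiedLineBundle.Classes c ε t, ∀ a,
      RigidifiedLineBundle.classesMap (openHom t (U a)) y = x a := by
  have hM := fun a => Quotient.exists_rep (x a)
  choose M hM using hM
  have hι : ∀ a, IsOpenImmersion (openHom t (U a)).1 := fun a =>
    inferInstanceAs (IsOpenImmersion (U a).ι)
  have hf : ∀ a, IsOpenImmersion (baseChangeSnd c (openHom t (U a))) := fun a =>
    isOpenImmersion_baseChangeSnd (c := c) (openHom t (U a))
  let π := pullback.snd c t
  let V : ι → (pullback c t).Opens := fun a => π ⁻¹ᵁ U a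
  have hrange : ∀ a, (baseChangeSnd c (openHom t (U a))).opensRange = V a := fun a => by
    rw [opensRange_baseChangeSnd]
    exact congrArg _ (Scheme.Opens.opensRange_ι (U a))
  -- `P a`: the pushforward of a representative `M a`, supported on `V a`, with rigidification `ψ a`
  let P : ι → (pullback c t).Modules := fun a =>
    (Scheme.Modules.pushforward (baseChangeSnd c (openHom t (U a)))).obj (M a).L
  have hsupp : ∀ a W, Function.Bijective (mres (P a) (inf_le_left : W ⊓ V a ≤ W)) := fun a =>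
    hrange a ▸ bijective_mres_pushforward _ (M a).L
  have hgens : ∀ a, HasGens (V a) (P a) := fun a =>
    hrange a ▸ hasGens_pushforward _ (M a).isInvertible
  have hσV : ∀ a, rigSection c t ε ⁻¹ᵁ V a ≤ (openHom t (U a)).1.opensRange := fun a y hy => by
    show y ∈ (U a).ι.opensRange
    rw [Scheme.Opens.opensRange_ι]
    have hy' : (rigSection c t ε ≫ π) y ∈ U a := hy
    rwa [show rigSection c t ε ≫ π = 𝟙 T from rigSection_snd] at hy'
  have hpush : ∀ a, ∃ ψ : LocalHom (V a) (P a) (sO (rigSection c t ε)), IsRig ψ := fun a =>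
    ⟨_, isRig_pushRig _ (openHom t (U a)).1 (rigSection_baseChangeSnd c ε (openHom t (U a))) (hσV a)
      (isRig_rigHom (M a) ⊤)⟩
  choose ψ hψ using hpush
  -- on overlaps a unique isomorphism respects the rigidifications, whence a glueing datum
  have hθ : ∀ a b, ∃ θ : LocalIso (V a ⊓ V b) (P a) (P b),
      θ.hom.comp ((ψ b).mono inf_le_right) = (ψ a).mono inf_le_left := fun a b => by
    let h : SchemeHomOver ((U a ⊓ U b).ι ≫ t) ((U a).ι ≫ t) :=
      ⟨T.homOfLE inf_le_left, by rw [← Category.assoc, Scheme.homOfLE_ι]⟩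
    let h' : SchemeHomOver ((U a ⊓ U b).ι ≫ t) ((U b).ι ≫ t) :=
      ⟨T.homOfLE inf_le_right, by rw [← Category.assoc, Scheme.homOfLE_ι]⟩
    have hmap := hx a b _ _ h h' (by rw [Scheme.homOfLE_ι, Scheme.homOfLE_ι])
    rw [← hM a, ← hM b] at hmap
    exact exists_transition hrigid (U a) (U b) (M a) (M b) h h' rfl rfl hmap (hψ a) (hψ b) (hgens a)
  choose θ hθ using hθ
  have hcov : (⊤ : (pullback c t).Opens) ≤ ⨆ a, V a := fun z _ => by
    obtain ⟨a, ha⟩ := TopologicalSpace.Opens.mem_iSup.1 (hU ▸ trivial : π z ∈ ⨆ a, U a)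
    exact TopologicalSpace.Opens.mem_iSup.2 ⟨a, ha⟩
  let D : GlueDatum (pullback c t) :=
    { ι := ι
      V := V
      cover := top_le_iff.1 hcov
      P := P
      supp := hsupp
      θ := θ
      θ_self := fun a => localIso_unique hrigid (U₀ := U a ⊓ U a)
        ((hgens a).mono (π.preimage_mono inf_le_left))
        ((hψ a).mono (π.preimage_mono inf_le_left))
        (ψ' := (ψ a).mono (π.preimage_mono inf_le_right)) (θ a a) (LocalIso.refl _ _)
        (hθ a a) rfl
      θ_trans := fun a b d W hab hbd had s => by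
        have l1 : π ⁻¹ᵁ (U a ⊓ U b ⊓ U d) ≤ π ⁻¹ᵁ (U a ⊓ U b) := π.preimage_mono inf_le_left
        have l2 : π ⁻¹ᵁ (U a ⊓ U b ⊓ U d) ≤ π ⁻¹ᵁ (U b ⊓ U d) :=
          π.preimage_mono (inf_le_inf_right _ inf_le_right)
        have l3 : π ⁻¹ᵁ (U a ⊓ U b ⊓ U d) ≤ π ⁻¹ᵁ (U a ⊓ U d) :=
          π.preimage_mono (inf_le_inf_right _ inf_le_left)
        have la : π ⁻¹ᵁ (U a ⊓ U b ⊓ U d) ≤ V a := π.preimage_mono (inf_le_left.trans inf_le_left)
        have ld : π ⁻¹ᵁ (U a ⊓ U b ⊓ U d) ≤ V d := π.preimage_mono inf_le_right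
        have key := localIso_unique hrigid (U₀ := U a ⊓ U b ⊓ U d) ((hgens a).mono la)
          ((hψ a).mono la) (ψ' := (ψ d).mono ld) (((θ a b).mono l1).trans ((θ b d).mono l2))
          ((θ a d).mono l3)
          (LocalHom.ext_app fun W' hW' z =>
            (congr(($(hθ b d)).app W' (hW'.trans l2)
              ((θ a b).hom.app W' (hW'.trans l1) z))).trans
              congr(($(hθ a b)).app W' (hW'.trans l1) z))
          (congrArg (LocalHom.mono l3) (hθ a d))
        exact congr(($key).app W (le_inf hab (hbd.trans inf_le_right)) s) }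
  -- the rigidifications glue to a rigidification `Ψ` of the glued module
  obtain ⟨Ψ, hΨ⟩ := LocalHom.exists_glue V (fun _ => le_top) hcov
    (fun a => (D.projIso a).hom.comp (ψ a)) fun a b => by
      show ((D.projIso a).hom.mono inf_le_left).comp ((ψ a).mono inf_le_left) =
        ((D.projIso b).hom.mono inf_le_right).comp ((ψ b).mono inf_le_right)
      rw [← hθ a b, ← LocalHom.comp_assoc]
      exact congrArg (LocalHom.comp · ((ψ b).mono inf_le_right)) (D.proj_comp_θ a b)
  have hNgens : HasGens ⊤ D.glued :=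
    HasGens.of_cover V (fun _ => le_top) hcov fun a => (hgens a).of_localIso (D.projIso a).symm
  have hΨrig : IsRig Ψ := fun y _ => by
    obtain ⟨a, ha⟩ := TopologicalSpace.Opens.mem_iSup.1
      (hcov (show rigSection c t ε y ∈ (⊤ : (pullback c t).Opens) from trivial))
    obtain ⟨W, hW, s, hs⟩ := hψ a y ha
    refine ⟨W, le_top, (D.projIso a).inv.app W hW s, ?_⟩
    have hval : Ψ.app W le_top ((D.projIso a).inv.app W hW s) =
        (ψ a).app W hW ((D.projIso a).hom.app W hW ((D.projIso a).inv.app W hW s)) :=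
      congr(($(hΨ a)).app W hW ((D.projIso a).inv.app W hW s))
    have hinv : (D.projIso a).hom.app W hW ((D.projIso a).inv.app W hW s) = s :=
      congr(($((D.projIso a).inv_hom_id)).app W hW s)
    rw [hinv] at hval
    unfold val
    rw [hval]
    exact hs
  -- so it is a rigidified line bundle, restricting to `M a` on each member
  have := isIso_of_isRig hNgens Ψ.toHom hΨrig
  let r : (Scheme.Modules.pullback (rigSection c t ε)).obj D.glued ⟶ oMod T :=
    ((Scheme.Modules.pullbackPushforwardAdjunction _).homEquiv _ _).symm Ψ.toHom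
  refine ⟨Quotient.mk _ ⟨D.glued, isInvertible_of_hasGens hNgens, ⟨asIso r⟩⟩, fun a => ?_⟩
  rw [← hM a]
  have := hf a
  exact Quotient.sound ⟨((Scheme.Modules.restrictFunctorIsoPullback
    (baseChangeSnd c (openHom t (U a)))).app D.glued).symm ≪≫
      restrictIso _ (hrange a).le (D.projIso a) ≪≫
      pushforwardRestrict (baseChangeSnd c (openHom t (U a))) (M a).L⟩

end Fermat.Agent.Jac

end
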