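import Fermat.Agent.Jac.Scheme.CoverFun

/-!
# The finite map to the affine line of a rational function on a curve
-/

set_option autoImplicit false

universe u

noncomputable section

open CategoryTheory AlgebraicGeometry TopologicalSpace Polynomial

namespace Fermat.Agent.Jac.CoverFun

variable {k : Type u} [Field k] {C : Scheme.{u}} (c : C ⟶ Spec (CommRingCat.of k))

/-- The substitution of a section into polynomials. -/
def polyHom (U : C.Opens) (t : Γ(C, U)) : CommRingCat.of k[X] ⟶ Γ(C, U) :=
  CommRingCat.ofHom (eval₂RingHom (kSec c U).hom t)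

theorem C_polyHom (U : C.Opens) (t : Γ(C, U)) :
    CommRingCat.ofHom (Polynomial.C : k →+* k[X]) ≫ polyHom c U t = kSec c U := by
  ext a; simp [polyHom]

theorem polyHom_X (U : C.Opens) (t : Γ(C, U)) : polyHom c U t X = t := by
  simp [polyHom]

/-- The morphism to the affine line of a section. -/
def lineMap (U : C.Opens) (t : Γ(C, U)) : (U : Scheme.{u}) ⟶ Spec (CommRingCat.of k[X]) :=
  U.toSpecΓ ≫ Spec.map (polyHom c U t)

theorem lineMap_over (U : C.Opens) (t : Γ(C, U)) :
    lineMap c U t ≫ Spec.map (CommRingCat.ofHom (Polynomial.C : k →+* k[X])) = U.ι ≫ c := by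
  rw [lineMap, Category.assoc, ← Spec.map_comp, C_polyHom, toSpecΓ_kSec]

/-- The values of the sections over an open set at a point with values in a ring. -/
def valueHom {R : CommRingCat.{u}} (φ : Spec R ⟶ C) (V : C.Opens) (e : ⊤ ≤ φ ⁻¹ᵁ V) : Γ(C, V) ⟶ R :=
  φ.appLE V ⊤ e ≫ (Scheme.ΓSpecIso R).hom

theorem SpecMap_valueHom {R : CommRingCat.{u}} (φ : Spec R ⟶ C) (V : C.Opens) (e : ⊤ ≤ φ ⁻¹ᵁ V)
    (i : Spec R ⟶ V) (hi : i ≫ V.ι = φ) : Spec.map (valueHom φ V e) = i ≫ V.toSpecΓ := by
  have h1 := Scheme.Opens.toSpecΓ_SpecMap_appLE φ V ⊤ e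
  rw [Scheme.Opens.toSpecΓ_top] at h1
  have h2 : φ.resLE V ⊤ e = (⊤ : (Spec R).Opens).ι ≫ i := by
    rw [← cancel_mono V.ι, Scheme.Hom.resLE_comp_ι, Category.assoc, hi]
  rw [h2, Category.assoc, Category.assoc] at h1
  rw [valueHom, Spec.map_comp, SpecMap_ΓSpecIso_hom]
  have : IsIso (⊤ : (Spec R).Opens).ι := (Scheme.topIso _).isIso_hom
  exact (cancel_epi _).mp h1

theorem valueHom_comp {R K : CommRingCat.{u}} (h : R ⟶ K) (φ : Spec R ⟶ C) (φ' : Spec K ⟶ C)
    (hφ : Spec.map h ≫ φ = φ') (V : C.Opens) (e : ⊤ ≤ φ ⁻¹ᵁ V) (e' : ⊤ ≤ φ' ⁻¹ᵁ V) :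
    valueHom φ' V e' = valueHom φ V e ≫ h := by
  subst hφ
  have e0 : (⊤ : (Spec K).Opens) ≤ Spec.map h ⁻¹ᵁ ⊤ := fun _ _ => trivial
  have h1 : (Spec.map h).appLE ⊤ ⊤ e0 = (Spec.map h).appTop :=
    (congrArg ((Spec.map h).app ⊤ ≫ ·) ((Spec K).presheaf.map_id _)).trans (Category.comp_id _)
  rw [valueHom, valueHom, Category.assoc, ← Scheme.ΓSpecIso_naturality, ← h1, ← Category.assoc,
    Scheme.Hom.appLE_comp_appLE]

/-- A function whose value at a point with values in a local ring is a unit has a unit germ at the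
image of the closed point. -/
private theorem isUnit_germ_of_isUnit_value {R : Type u} [CommRing R] [IsLocalRing R]
    (l : Spec (CommRingCat.of R) ⟶ C) {V : C.Opens} (eV : ⊤ ≤ l ⁻¹ᵁ V) (u : Γ(C, V))
    (hxV : l (IsLocalRing.closedPoint R) ∈ V) (hunit : IsUnit (valueHom l V eV u)) :
    IsUnit (C.presheaf.germ V _ hxV u) := by
  have : IsLocalHom (l.stalkMap (IsLocalRing.closedPoint R)).hom := l.toLRSHom.prop _
  refine (isUnit_map_iff (l.stalkMap (IsLocalRing.closedPoint R)).hom _).mp ?_
  rw [Scheme.Hom.germ_stalkMap_apply]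
  have happ : IsUnit (l.appLE V ⊤ eV u) := by
    have := hunit.map (Scheme.ΓSpecIso (CommRingCat.of R)).inv.hom
    simpa [valueHom] using this
  have hgerm := happ.map ((Spec (CommRingCat.of R)).presheaf.germ ⊤
    (IsLocalRing.closedPoint R) trivial).hom
  rw [Scheme.Hom.appLE, ConcreteCategory.comp_apply] at hgerm
  convert hgerm using 1
  exact (ConcreteCategory.congr_hom
    ((Spec (CommRingCat.of R)).presheaf.germ_res (homOfLE eV) _ trivial) _).symm

section Curve

variable [IsAlgClosed k] [IsProper c] [SmoothOfRelativeDimension 1 c] [IsIntegral C]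

theorem isUnit_germ_mul_eq_one {U V : C.Opens} [Nonempty U] [Nonempty V] (t : Γ(C, U)) (u : Γ(C, V))
    (h : C.germToFunctionField U t * C.germToFunctionField V u = 1) :
    C.presheaf.map (homOfLE (inf_le_left : U ⊓ V ≤ U)).op t *
      C.presheaf.map (homOfLE (inf_le_right : U ⊓ V ≤ V)).op u = 1 := by
  have : Nonempty (U ⊓ V : C.Opens) :=
    ⟨⟨genericPoint C, genericPoint_mem_of_nonempty U, genericPoint_mem_of_nonempty V⟩⟩
  apply C.germToFunctionField_injective (U ⊓ V)
  rw [map_mul, map_one, germToFunctionField_map, germToFunctionField_map, h]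

theorem lineMap_existence {F : C.functionField} (hF : F ≠ 0) [Nonempty (regLocus F)]
    (t : Γ(C, regLocus F)) (ht : C.germToFunctionField (regLocus F) t = F) :
    ValuativeCriterion.Existence (lineMap c (regLocus F) t) := by
  rintro ⟨R, K, i₁, i₂, ⟨w⟩⟩
  have hc : ValuativeCriterion.Existence c :=
    (UniversallyClosed.eq_valuativeCriterion.le _ _ _ (inferInstance : UniversallyClosed c)).1
  let ψ : Spec (CommRingCat.of K) ⟶ Spec (CommRingCat.of R) :=
    Spec.map (CommRingCat.ofHom (algebraMap R K))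
  have w' : (i₁ ≫ (regLocus F).ι) ≫ c =
      ψ ≫ i₂ ≫ Spec.map (CommRingCat.ofHom (Polynomial.C : k →+* k[X])) := by
    rw [Category.assoc, ← lineMap_over c _ t, ← Category.assoc, w, Category.assoc]
  obtain ⟨⟨(l : Spec (CommRingCat.of R) ⟶ C), (hl₁ : ψ ≫ l = i₁ ≫ (regLocus F).ι), hl₂⟩⟩ :=
    (hc ⟨R, K, i₁ ≫ (regLocus F).ι, _, ⟨w'⟩⟩).exists_lift
  have hsp : ∀ y : Spec (CommRingCat.of R), y ⤳ IsLocalRing.closedPoint R := fun y =>
    IsLocalRing.specializes_closedPoint y
  -- `l` lifts the point to `C`; its closed point is in the regular locus of `F`: otherwise some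
  -- `u` equal to `F⁻¹` near it would have a value inverse to the integral value of `t`, so a unit
  have hreg : Reg F (l (IsLocalRing.closedPoint R)) := by
    rcases reg_or_reg_inv c F (l (IsLocalRing.closedPoint R)) with h | h
    · exact h
    obtain ⟨V, hVne, u, hxV, hu⟩ := exists_open_of_reg h
    have eV : ⊤ ≤ l ⁻¹ᵁ V := fun y _ => (hsp y).mem_open (l ⁻¹ᵁ V).2 hxV
    have hmU : ⊤ ≤ (i₁ ≫ (regLocus F).ι) ⁻¹ᵁ regLocus F := fun y _ => (i₁ y).2
    have hmV : ⊤ ≤ (i₁ ≫ (regLocus F).ι) ⁻¹ᵁ V := fun y _ => by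
      rw [← hl₁]; exact eV (x := ψ y) trivial
    have hmW : ⊤ ≤ (i₁ ≫ (regLocus F).ι) ⁻¹ᵁ (regLocus F ⊓ V) := fun y hy => ⟨hmU hy, hmV hy⟩
    have hone : valueHom _ _ hmU t * valueHom _ _ hmV u = 1 := by
      have h1 := isUnit_germ_mul_eq_one t u (by rw [ht, hu, mul_inv_cancel₀ hF])
      have h2 : ∀ (U' : C.Opens) (hle : regLocus F ⊓ V ≤ U')
          (hU' : ⊤ ≤ (i₁ ≫ (regLocus F).ι) ⁻¹ᵁ U'),
          C.presheaf.map (homOfLE hle).op ≫ valueHom _ _ hmW = valueHom _ _ hU' := by
        intro U' hle hU'
        rw [valueHom, valueHom, Scheme.Hom.map_appLE_assoc]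
      rw [← h2 _ inf_le_left hmU, ← h2 _ inf_le_right hmV, ConcreteCategory.comp_apply,
        ConcreteCategory.comp_apply, ← map_mul, h1, map_one]
    have hut : valueHom _ _ hmV u = algebraMap R K (valueHom l V eV u) := by
      have : valueHom _ _ hmV = valueHom l V eV ≫ CommRingCat.ofHom (algebraMap R K) :=
        valueHom_comp _ _ _ hl₁ _ _ _
      rw [this]; rfl
    obtain ⟨b, hb⟩ : ∃ b : CommRingCat.of k[X] ⟶ CommRingCat.of R, Spec.map b = i₂ :=
      ⟨_, Spec.map_preimage i₂⟩
    have htb : valueHom _ _ hmU t = algebraMap R K (b X) := by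
      have h1 : polyHom c (regLocus F) t ≫ valueHom _ _ hmU =
          b ≫ CommRingCat.ofHom (algebraMap R K) := Spec.map_injective (by
        rw [Spec.map_comp, Spec.map_comp, SpecMap_valueHom _ _ _ i₁ rfl, Category.assoc, hb]
        exact w)
      have h2 := ConcreteCategory.congr_hom h1 X
      rwa [ConcreteCategory.comp_apply, polyHom_X] at h2
    have hunit : IsUnit (valueHom l V eV u) := by
      rw [htb, hut, ← map_mul, ← map_one (algebraMap R K)] at hone
      exact .of_mul_eq_one (b X) ((mul_comm _ _).trans (IsFractionRing.injective R K hone))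
    have hgerm : IsUnit (C.presheaf.germ V _ hxV u) := isUnit_germ_of_isUnit_value l eV u hxV hunit
    have hFinv := ((isUnit_germ_iff u hxV).mp hgerm).2
    rwa [hu, inv_inv] at hFinv
  -- so `l` lands in the regular locus, and lifts the square there
  have hrange : Set.range l ⊆ Set.range (regLocus F).ι := by
    rw [Scheme.Opens.range_ι]
    rintro _ ⟨y, rfl⟩
    exact ((hsp y).map l.continuous).mem_open (regLocus F).2 hreg
  refine ⟨⟨⟨IsOpenImmersion.lift (regLocus F).ι l hrange, ?_, ?_⟩⟩⟩
  · rw [← cancel_mono (regLocus F).ι, Category.assoc, IsOpenImmersion.lift_fac]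
    exact hl₁
  · obtain ⟨b, hb⟩ : ∃ b, Spec.map b =
        IsOpenImmersion.lift (regLocus F).ι l hrange ≫ lineMap c (regLocus F) t :=
      ⟨_, Spec.map_preimage _⟩
    obtain ⟨b', hb'⟩ : ∃ b', Spec.map b' = i₂ := ⟨_, Spec.map_preimage i₂⟩
    rw [← hb]
    refine Eq.trans ?_ hb'
    congr 1
    have hψb : ψ ≫ Spec.map b = ψ ≫ Spec.map b' := by
      rw [hb, hb', ← Category.assoc]
      refine Eq.trans ?_ w
      congr 1
      rw [← cancel_mono (regLocus F).ι, Category.assoc, IsOpenImmersion.lift_fac]
      exact hl₁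
    rw [← Spec.map_comp, ← Spec.map_comp] at hψb
    have hbK := Spec.map_injective hψb
    apply CommRingCat.hom_ext
    apply RingHom.ext
    intro q
    exact IsFractionRing.injective R K (ConcreteCategory.congr_hom hbK q)

omit [IsProper c] [SmoothOfRelativeDimension 1 c] in
/-- `t` non-constant: the polynomials in `t` embed. -/
private theorem polyHom_injective {U : C.Opens} [Nonempty U] (t : Γ(C, U))
    (h : ∀ a, C.germToFunctionField U t ≠ kFun c a) : Function.Injective (polyHom c U t) := by
  let := (kFun c).toAlgebra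
  have hnalg : ¬ IsAlgebraic k (C.germToFunctionField U t) := fun halg => by
    have hdeg := IsAlgClosed.degree_eq_one_of_irreducible k (minpoly.irreducible halg.isIntegral)
    obtain ⟨a, ha⟩ := minpoly.degree_eq_one_iff.mp hdeg
    exact h a ha.symm
  have hcomp : ∀ p : k[X],
      C.germToFunctionField U (polyHom c U t p) = aeval (C.germToFunctionField U t) p := fun p => by
    change (C.germToFunctionField U).hom (eval₂ _ _ p) = _
    rw [hom_eval₂, aeval_def]
    congr 1
    ext a
    exact germToFunctionField_kSec U a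
  intro p q hpq
  have := transcendental_iff_injective.mp hnalg
  exact this (by rw [← hcomp, ← hcomp, hpq])

omit [IsAlgClosed k] [IsProper c] [SmoothOfRelativeDimension 1 c] in
/-- The generic point goes to a non-closed point of the line, `t` being transcendental. -/
private theorem not_isClosed_lineMap_genericPoint {U : C.Opens} [Nonempty U] (t : Γ(C, U))
    (hinj : Function.Injective (polyHom c U t)) :
    ¬ IsClosed ({lineMap c U t ⟨genericPoint C, genericPoint_mem_of_nonempty U⟩} :
      Set (Spec (CommRingCat.of k[X]))) := by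
  let ηU : U := ⟨genericPoint C, genericPoint_mem_of_nonempty U⟩
  let g := lineMap c U t
  intro hc
  have hmax : (g ηU).asIdeal.IsMaximal :=
    (PrimeSpectrum.isClosed_singleton_iff_isMaximal _).mp hc
  have hbot : (g ηU).asIdeal = ⊥ := by
    obtain ⟨_, ⟨(W : C.Opens), hW, rfl⟩, hηW, hWU⟩ :=
      C.isBasis_affineOpens.exists_subset_of_mem_open ηU.2 U.2
    replace hW : IsAffineOpen W := hW
    replace hWU : W ≤ U := hWU
    have : Nonempty W := ⟨⟨_, hηW⟩⟩
    let φ : CommRingCat.of k[X] ⟶ Γ(C, W) := polyHom c U t ≫ C.presheaf.map (homOfLE hWU).op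
    have hφ : Function.Injective φ :=
      (map_injective_of_isIntegral C (homOfLE hWU)).comp hinj
    have hfactor : C.homOfLE hWU ≫ g = W.toSpecΓ ≫ Spec.map φ := by
      rw [Spec.map_comp, Scheme.Opens.toSpecΓ_SpecMap_presheaf_map_assoc]; rfl
    have himage : (g ηU) = Spec.map φ (hW.primeIdealOf ⟨genericPoint C, hηW⟩) := by
      let ηW : (W : Scheme.{u}) := ⟨genericPoint C, hηW⟩
      have hηW' := congrArg (fun m => m ηW) hfactor
      simp only [Scheme.Hom.comp_apply] at hηW'
      have hι : C.homOfLE hWU ηW = ηU := Subtype.ext (Scheme.homOfLE_apply hWU ηW)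
      rw [hι] at hηW'
      exact hηW'
    rw [himage]
    change Ideal.comap φ.hom (hW.primeIdealOf ⟨genericPoint C, hηW⟩).asIdeal = ⊥
    rw [(primeIdealOf_eq_bot_iff hW ⟨genericPoint C, hηW⟩).mpr rfl]
    exact (RingHom.ker_eq_comap_bot φ.hom).symm.trans
      ((RingHom.injective_iff_ker_eq_bot _).mp hφ)
  rw [hbot] at hmax
  exact Polynomial.not_isField k (Ring.isField_iff_maximal_bot.mpr hmax)

/-- A non-constant function is a finite map from its regular locus, an affine open, to the line. -/
theorem exists_finite_section {F : C.functionField} (hF : ∀ a, F ≠ kFun c a) :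
    ∃ (_ : IsAffineOpen (regLocus F)) (_ : Nonempty (regLocus F)) (t : Γ(C, regLocus F)),
      C.germToFunctionField (regLocus F) t = F ∧ Function.Injective (polyHom c (regLocus F) t) ∧
        (polyHom c (regLocus F) t).hom.Finite := by
  have := nonempty_regLocus F
  have hF0 : F ≠ 0 := fun h => hF 0 (by rw [h, map_zero])
  obtain ⟨t, ht⟩ := exists_section F
  have hinj : Function.Injective (polyHom c (regLocus F) t) :=
    polyHom_injective c t (ht.symm ▸ hF)
  let U := regLocus F
  let g := lineMap c U t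
  -- the map to the line is proper by the valuative criterion
  have := isNoetherian_curve c
  have : IsSeparated (g ≫ Spec.map (CommRingCat.ofHom (Polynomial.C : k →+* k[X]))) := by
    rw [lineMap_over]; infer_instance
  have : IsSeparated g := .of_comp g (Spec.map (CommRingCat.ofHom (Polynomial.C : k →+* k[X])))
  have : LocallyOfFiniteType (g ≫ Spec.map (CommRingCat.ofHom (Polynomial.C : k →+* k[X]))) := by
    rw [lineMap_over]; infer_instance
  have : LocallyOfFiniteType g :=
    locallyOfFiniteType_of_comp g (Spec.map (CommRingCat.ofHom (Polynomial.C : k →+* k[X])))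
  have : CompactSpace (U : Scheme.{u}) :=
    isCompact_iff_compactSpace.mp (NoetherianSpace.isCompact (U : Set C))
  have : QuasiCompact g := (quasiCompact_iff_compactSpace g).mpr inferInstance
  have : UniversallyClosed g := .of_valuativeCriterion g (lineMap_existence c hF0 t ht)
  have : IsProper g := {}
  -- its fibres are finite, as the generic point lies over the generic point of the line
  have hfib : ∀ y, (g ⁻¹' {y}).Finite := by
    let ηU : U := ⟨genericPoint C, genericPoint_mem_of_nonempty U⟩
    have hclosed : ∀ x : (U : Scheme.{u}), x.1 ≠ genericPoint C → IsClosed ({g x} : Set _) := by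
      intro x hx
      have h1 : IsClosed ({x} : Set (U : Scheme.{u})) := by
        have := (isClosed_of_ne_genericPoint c hx).preimage U.ι.continuous
        convert this using 1
        ext z
        exact (Function.Injective.eq_iff Subtype.val_injective).symm
      exact g.closePoints_subset_preimage_closedPoints h1
    have hη : ¬ IsClosed ({g ηU} : Set _) := not_isClosed_lineMap_genericPoint c t hinj
    intro y
    by_cases hy : IsClosed ({y} : Set (Spec (CommRingCat.of k[X])))
    · have h1 : IsClosed (g ⁻¹' {y}) := hy.preimage g.continuous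
      obtain ⟨Z, hZ, hZeq⟩ := U.ι.isOpenEmbedding.isInducing.isClosed_iff.mp h1
      have hηZ : genericPoint C ∉ Z := fun hm => hη (by
        have : ηU ∈ g ⁻¹' {y} := hZeq ▸ hm
        rwa [show g ηU = y from this])
      exact hZeq ▸ (finite_of_isClosed c hZ hηZ).preimage U.ι.isOpenEmbedding.injective.injOn
    · refine (Set.finite_singleton ηU).subset fun x hx => ?_
      by_contra hne
      have := hclosed x fun h => hne (Subtype.ext h)
      rw [show g x = y from hx] at this
      exact hy this
  have : LocallyQuasiFinite g := locallyQuasiFinite_iff_finite_preimage_singleton.mpr hfib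
  have : IsFinite g := .of_isProper_of_locallyQuasiFinite g
  have hU : IsAffineOpen U := isAffine_of_isAffineHom g
  refine ⟨hU, nonempty_regLocus F, t, ht, hinj, ?_⟩
  rw [← IsFinite.SpecMap_iff]
  rw [show Spec.map (polyHom c U t) = hU.isoSpec.inv ≫ g by
    rw [show g = U.toSpecΓ ≫ Spec.map (polyHom c U t) from rfl,
      IsAffineOpen.isoSpec_inv_toSpecΓ_assoc]]
  infer_instance

end Curve

end Fermat.Agent.Jac.CoverFun

end
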