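import Fermat.Agent.Jac.Curve
import Fermat.Agent.Jac.Scheme.CoverFinite
import Fermat.Prelude.Def_AlgebraicGeometry_RelPicardAlgEquivZeroCut

/-!
# A smooth proper curve and its affine data

`exists_curveCover`: over an algebraically closed field the charts are the regular loci of a
non-constant rational function `F`, regular at the marked point, and of `F⁻¹`; both are finite over
the affine line. Hence a smooth proper integral curve is geometrically integral
(`geometricallyIntegral_curve`).
-/

set_option autoImplicit false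

universe u

noncomputable section

open CategoryTheory CategoryTheory.Limits AlgebraicGeometry NeronModelInfra TensorProduct

namespace Fermat.Agent.Jac

variable (k : Type u) [Field k]

/-! ### Covers by two affine charts -/

/-- The structure morphism of an affine `k`-scheme. -/
abbrev specT (R : Type u) [CommRing R] [Algebra k R] :
    Spec (CommRingCat.of R) ⟶ Spec (CommRingCat.of k) :=
  Spec.map (CommRingCat.ofHom (algebraMap k R))

variable {k}

/-- The morphism of affine `k`-schemes of an algebra homomorphism. -/
def specMapOver {R R' : Type u} [CommRing R] [Algebra k R] [CommRing R'] [Algebra k R']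
    (φ : R →ₐ[k] R') :
    SchemeHomOver (specT k R') (specT k R) :=
  ⟨Spec.map (CommRingCat.ofHom (φ : R →+* R')), by
    rw [← Spec.map_comp, ← CommRingCat.ofHom_comp, φ.comp_algebraMap]⟩

/-- Morphisms over the field between affine schemes come from algebra homomorphisms. -/
theorem exists_eq_specMapOver {R R' : Type u} [CommRing R] [Algebra k R] [CommRing R']
    [Algebra k R'] (ψ : SchemeHomOver (specT k R') (specT k R)) :
    ∃ φ : R →ₐ[k] R', ψ = specMapOver φ := by
  obtain ⟨f, hf⟩ : ∃ f : CommRingCat.of R ⟶ CommRingCat.of R', Spec.map f = ψ.1 :=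
    ⟨_, Spec.map_preimage ψ.1⟩
  have h : CommRingCat.ofHom (algebraMap k R) ≫ f = CommRingCat.ofHom (algebraMap k R') :=
    Spec.map_injective (by rw [Spec.map_comp, hf]; exact ψ.2)
  refine ⟨⟨f.hom, fun a => congr($(h).hom a)⟩, Subtype.ext ?_⟩
  exact hf.symm

/-- An affine presentation of the curve by algebraic data. -/
structure CurveCover {C : Scheme.{u}} (c : C ⟶ Spec (CommRingCat.of k))
    (ε : SchemeHomOver (𝟙 (Spec (CommRingCat.of k))) c) where
  /-- the algebraic data -/
  D : CurveData k
  /-- the two charts -/
  j : ∀ i, Spec (CommRingCat.of (D.B i)) ⟶ C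
  [isOpenImmersion : ∀ i, IsOpenImmersion (j i)]
  j_over : ∀ i, j i ≫ c = specT k (D.B i)
  covers : (j 0).opensRange ⊔ (j 1).opensRange = ⊤
  overlap : IsPullback (Spec.map (CommRingCat.ofHom (D.res 0).toRingHom))
    (Spec.map (CommRingCat.ofHom (D.res 1).toRingHom)) (j 0) (j 1)
  ev_eq : Spec.map (CommRingCat.ofHom D.ev.toRingHom) ≫ j 0 = ε.1

attribute [instance] CurveCover.isOpenImmersion

namespace CurveCover

variable {C : Scheme.{u}} {c : C ⟶ Spec (CommRingCat.of k)}
  {ε : SchemeHomOver (𝟙 (Spec (CommRingCat.of k))) c} (cov : CurveCover c ε)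
variable (R : Type u) [CommRing R] [Algebra k R]

/-- A chart of the curve over `R`. -/
def jR (i : Fin 2) : Spec (CommRingCat.of (cov.D.A R i)) ⟶ pullback c (specT k R) :=
  pullback.lift
    (Spec.map (CommRingCat.ofHom ((Algebra.TensorProduct.includeRight : cov.D.B i →ₐ[k] cov.D.A R i)
        : cov.D.B i →+* cov.D.A R i))
      ≫ cov.j i)
    (Spec.map (CommRingCat.ofHom (algebraMap R (cov.D.A R i))))
    (by
      rw [Category.assoc, cov.j_over, ← Spec.map_comp, ← Spec.map_comp, ← CommRingCat.ofHom_comp,
        ← CommRingCat.ofHom_comp, AlgHom.comp_algebraMap,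
        ← IsScalarTower.algebraMap_eq k R (cov.D.A R i)])

/-- On a chart of the curve over `R` the second projection is induced by the scalars `R → A i`. -/
theorem jR_snd (i : Fin 2) :
    cov.jR R i ≫ pullback.snd c (specT k R) =
      Spec.map (CommRingCat.ofHom (algebraMap R (cov.D.A R i))) :=
  pullback.lift_snd _ _ _

/-- On a chart of the curve over `R` the first projection is induced by `B i → A i`, followed by the
chart of the curve. -/
theorem jR_fst (i : Fin 2) :
    cov.jR R i ≫ pullback.fst c (specT k R) =
      Spec.map (CommRingCat.ofHom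
        ((Algebra.TensorProduct.includeRight : cov.D.B i →ₐ[k] cov.D.A R i) :
        cov.D.B i →+* cov.D.A R i)) ≫ cov.j i :=
  pullback.lift_fst _ _ _

/-- A chart of the curve over `R` is the base change of the chart of the curve. -/
theorem isPullback_jR (i : Fin 2) :
    IsPullback (cov.jR R i)
      (Spec.map (CommRingCat.ofHom
        ((Algebra.TensorProduct.includeRight : cov.D.B i →ₐ[k] cov.D.A R i) :
        cov.D.B i →+* cov.D.A R i)))
      (pullback.fst c (specT k R)) (cov.j i) := by
  refine IsPullback.of_right ?_ (cov.jR_fst R i) (IsPullback.of_hasPullback c (specT k R)).flip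
  rw [jR_snd, cov.j_over]
  exact isPullback_SpecMap_of_isPushout _ _ _ _
    (CommRingCat.isPushout_tensorProduct k R (cov.D.B i))

instance isOpenImmersion_jR (i : Fin 2) : IsOpenImmersion (cov.jR R i) :=
  MorphismProperty.of_isPullback (cov.isPullback_jR R i).flip inferInstance

/-- A chart over `R` is the preimage of the chart of the curve. -/
theorem opensRange_jR (i : Fin 2) :
    (cov.jR R i).opensRange = pullback.fst c (specT k R) ⁻¹ᵁ (cov.j i).opensRange := by
  have h := (cov.isPullback_jR R i).isoPullback_hom_fst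
  rw [← Scheme.Hom.opensRange_pullbackFst (cov.j i) (pullback.fst c (specT k R))]
  ext1
  rw [Scheme.Hom.coe_opensRange, Scheme.Hom.coe_opensRange, ← h]
  simp only [Scheme.Hom.comp_base, TopCat.coe_comp, Set.range_comp]
  rw [show Set.range ⇑(cov.isPullback_jR R i).isoPullback.hom = Set.univ from
    (cov.isPullback_jR R i).isoPullback.hom.homeomorph.surjective.range_eq, Set.image_univ]

/-- The two charts cover the curve over `R`. -/
theorem jR_covers : (cov.jR R 0).opensRange ⊔ (cov.jR R 1).opensRange = ⊤ := by
  rw [opensRange_jR, opensRange_jR]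
  ext x
  simpa using show pullback.fst c (specT k R) x ∈ (cov.j 0).opensRange ⊔ (cov.j 1).opensRange by
    rw [cov.covers]; trivial

end CurveCover

open CoverFun

/-! ### Existence -/

/-- A rational point in an affine open gives an evaluation on its sections. -/
private theorem exists_ev {C : Scheme.{u}} (c : C ⟶ Spec (CommRingCat.of k))
    (ε : SchemeHomOver (𝟙 (Spec (CommRingCat.of k))) c) {U : C.Opens} (hU : IsAffineOpen U)
    (hp : ∀ y, ε.1 y ∈ U) :
    letI := secAlgebra c U
    ∃ ev : Γ(C, U) →ₐ[k] k, Spec.map (CommRingCat.ofHom ev.toRingHom) ≫ hU.fromSpec = ε.1 := by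
  let := secAlgebra c U
  let i := IsOpenImmersion.lift U.ι ε.1 (by
    rw [Scheme.Opens.range_ι]; rintro _ ⟨y, rfl⟩; exact hp y)
  obtain ⟨φ, hφ⟩ : ∃ φ, Spec.map φ = i ≫ U.toSpecΓ := ⟨_, Spec.map_preimage _⟩
  have hkφ : kSec c U ≫ φ = 𝟙 _ := Spec.map_injective (by
    rw [Spec.map_comp, hφ, Category.assoc, toSpecΓ_kSec, IsOpenImmersion.lift_fac_assoc, ε.2,
      Spec.map_id])
  refine ⟨{ φ.hom with commutes' := fun a => ConcreteCategory.congr_hom hkφ a }, ?_⟩
  change Spec.map φ ≫ _ = _
  rw [hφ, Category.assoc, IsAffineOpen.toSpecΓ_fromSpec, IsOpenImmersion.lift_fac]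

omit [Field k] in
/-- The charts of two affine opens meet in their intersection. -/
private theorem isPullback_fromSpec {C : Scheme.{u}} {U V W : C.Opens} (hU : IsAffineOpen U)
    (hV : IsAffineOpen V) (hW : IsAffineOpen W) (hWUV : W = U ⊓ V)
    {f : Spec Γ(C, W) ⟶ Spec Γ(C, U)} {g : Spec Γ(C, W) ⟶ Spec Γ(C, V)} [IsOpenImmersion g]
    (hf : f ≫ hU.fromSpec = hW.fromSpec) (hg : g ≫ hV.fromSpec = hW.fromSpec) :
    IsPullback f g hU.fromSpec hV.fromSpec := by
  refine IsOpenImmersion.isPullback _ _ _ _ (hg.trans hf.symm) ?_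
  ext1
  refine hV.fromSpec.isOpenEmbedding.injective.image_injective ?_
  rw [Scheme.Hom.coe_opensRange, ← Set.range_comp, ← TopCat.coe_comp, ← Scheme.Hom.comp_base, hg,
    IsAffineOpen.range_fromSpec, IsAffineOpen.opensRange_fromSpec]
  change hV.fromSpec '' (hV.fromSpec ⁻¹' (U : Set C)) = _
  rw [Set.image_preimage_eq_inter_range, IsAffineOpen.range_fromSpec, hWUV]
  rfl

/-- An affine open of a smooth curve has a non-constant function, as it is not a point. -/
private theorem exists_nonconstant [IsAlgClosed k] {C : Scheme.{u}}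
    (c : C ⟶ Spec (CommRingCat.of k)) [IsProper c] [SmoothOfRelativeDimension 1 c] [IsIntegral C]
    {W : C.Opens} (hW : IsAffineOpen W) [Nonempty W] :
    ∃ w : Γ(C, W), ∀ a, C.germToFunctionField W w ≠ kFun c a := by
  by_contra! hc
  refine (isDedekindDomain_affine c hW).2 ?_
  have hb : Function.Bijective (kSec c W).hom := ⟨(kSec c W).hom.injective, fun w => by
    obtain ⟨a, ha⟩ := hc w
    exact ⟨a, C.germToFunctionField_injective W ((germToFunctionField_kSec W a).trans ha.symm)⟩⟩
  exact MulEquiv.isField (Field.toIsField k) (RingEquiv.ofBijective _ hb).symm.toMulEquiv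

omit [Field k] in
/-- The regular loci of `G` and `G⁻¹` meet in the locus where `G` is invertible. -/
private theorem regLocus_inf_regLocus_inv {C : Scheme.{u}} [IsIntegral C] {G : C.functionField}
    (hG : G ≠ 0) [Nonempty (regLocus G)] {t : Γ(C, regLocus G)}
    (ht : C.germToFunctionField (regLocus G) t = G) :
    regLocus G ⊓ regLocus G⁻¹ = C.basicOpen t := by
  apply le_antisymm
  · intro x hx
    refine (C.mem_basicOpen t x hx.1).mpr ((isUnit_germ_iff _ _).mpr ⟨ht.symm ▸ hG, ?_⟩)
    rw [ht]
    exact hx.2
  · intro x hx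
    have hxU : x ∈ regLocus G := C.basicOpen_le t hx
    have h := ((isUnit_germ_iff _ hxU).mp ((C.mem_basicOpen t x hxU).mp hx)).2
    rw [ht] at h
    exact ⟨hxU, h⟩

/-- Sections on a chart finite over the line form an algebra of finite type. -/
private theorem finiteType_of_finite {C : Scheme.{u}} (c : C ⟶ Spec (CommRingCat.of k))
    {U : C.Opens} {t : Γ(C, U)} (h : (polyHom c U t).hom.Finite) :
    letI := secAlgebra c U
    Algebra.FiniteType k Γ(C, U) := by
  let := secAlgebra c U
  have h' : (kSec c U).hom.FiniteType := by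
    rw [← C_polyHom c U t, CommRingCat.hom_comp]
    exact h.finiteType.comp (RingHom.finiteType_algebraMap.mpr
      (inferInstance : Algebra.FiniteType k (Polynomial k)))
  exact h'

/-- On a proper curve a function regular on both of two covering opens is constant. -/
private theorem exists_eq_kSec [IsAlgClosed k] {C : Scheme.{u}} (c : C ⟶ Spec (CommRingCat.of k))
    [IsProper c] [SmoothOfRelativeDimension 1 c] [IsIntegral C] {U V : C.Opens} [Nonempty U]
    [Nonempty V] (hcov : ∀ x, x ∈ U ∨ x ∈ V) (b₀ : Γ(C, U)) (b₁ : Γ(C, V))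
    (h : C.germToFunctionField U b₀ = C.germToFunctionField V b₁) :
    ∃ a, b₀ = kSec c U a := by
  obtain ⟨a, ha⟩ := eq_kFun_of_reg c (F := C.germToFunctionField U b₀) fun x => by
    rcases hcov x with hx | hx
    · exact reg_germToFunctionField b₀ hx
    · exact h ▸ reg_germToFunctionField b₁ hx
  exact ⟨a, C.germToFunctionField_injective U (ha.trans (germToFunctionField_kSec U a).symm)⟩

/-- An affine open of a smooth curve stays a Dedekind domain over an extension field of `k`. -/
private theorem isDedekindDomain_tensor [IsAlgClosed k] {C : Scheme.{u}}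
    (c : C ⟶ Spec (CommRingCat.of k)) [IsProper c] [SmoothOfRelativeDimension 1 c] [IsIntegral C]
    {U : C.Opens} (hU : IsAffineOpen U) [Nonempty U] (K : Type u) [Field K] [IsAlgClosed K]
    [Algebra k K] :
    letI := secAlgebra c U
    ∀ (_ : Algebra.FiniteType k Γ(C, U)), IsDedekindDomain (K ⊗[k] Γ(C, U)) := by
  let := secAlgebra c U
  intro _
  have : IsDomain (K ⊗[k] Γ(C, U)) := isDomain_tensorProduct _ K
  have : IsNoetherianRing (K ⊗[k] Γ(C, U)) := Algebra.FiniteType.isNoetherianRing K _
  let : Algebra Γ(C, U) (K ⊗[k] Γ(C, U)) := Algebra.TensorProduct.rightAlgebra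
  exact (isDedekindDomain_of_locally (k := K) (A := K ⊗[k] Γ(C, U))
    (RingHom.locally_isStableUnderBaseChange
      RingHom.isStandardSmoothOfRelativeDimension_respectsIso
      (RingHom.isStandardSmoothOfRelativeDimension_isStableUnderBaseChange 1)
      k Γ(C, U) K (K ⊗[k] Γ(C, U)) (locally_kSec c hU))).1

/-- Every smooth proper curve with a point over an algebraically closed field has affine data. -/
theorem exists_curveCover [IsAlgClosed k] {C : Scheme.{u}} (c : C ⟶ Spec (CommRingCat.of k))
    [IsProper c] [SmoothOfRelativeDimension 1 c] [IsIntegral C]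
    (ε : SchemeHomOver (𝟙 (Spec (CommRingCat.of k))) c) :
    Nonempty (CurveCover c ε) := by
  obtain ⟨_, ⟨(W : C.Opens), hW, rfl⟩, hpW, -⟩ := C.isBasis_affineOpens.exists_subset_of_mem_open
    (Set.mem_univ (ε.1 (IsLocalRing.closedPoint k))) isOpen_univ
  replace hW : IsAffineOpen W := hW
  have : Nonempty W := ⟨⟨_, hpW⟩⟩
  -- a non-constant function `w` near the marked point, as an affine open is not a point
  obtain ⟨w, hw⟩ := exists_nonconstant c hW
  let F : C.functionField := C.germToFunctionField W w
  let Fs : Fin 2 → C.functionField := ![F, F⁻¹]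
  have hFs : ∀ i a, Fs i ≠ kFun c a := by
    intro i a
    fin_cases i
    · exact hw a
    · intro h
      exact hw a⁻¹ (by rw [map_inv₀, ← show F⁻¹ = kFun c a from h, inv_inv])
  have hF0 : F ≠ 0 := fun h => hw 0 (h.trans (map_zero _).symm)
  -- the charts `U i` are the regular loci of `F` and `F⁻¹`, each finite over the line; their
  -- intersection `V` is the locus where the coordinate is invertible
  choose hU hne t ht hinj hfin using fun i => exists_finite_section c (hFs i)
  let U : Fin 2 → C.Opens := fun i => regLocus (Fs i)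
  let V : C.Opens := U 0 ⊓ U 1
  have hVle : ∀ i, V ≤ U i := by
    intro i; fin_cases i
    exacts [inf_le_left, inf_le_right]
  have hneV : Nonempty V :=
    ⟨⟨genericPoint C, genericPoint_mem_of_nonempty (U 0), genericPoint_mem_of_nonempty (U 1)⟩⟩
  have hFs0 : ∀ i, Fs i ≠ 0 := fun i h => hFs i 0 (h.trans (map_zero _).symm)
  have hFsinv : ∀ i, (Fs i)⁻¹ = Fs (1 - i) := by
    intro i; fin_cases i
    exacts [rfl, inv_inv F]
  have hVbasic : ∀ i, V = C.basicOpen (t i) := fun i => by
    rw [← regLocus_inf_regLocus_inv (hFs0 i) (ht i), hFsinv]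
    fin_cases i
    exacts [rfl, inf_comm _ _]
  let algU : ∀ i, Algebra k Γ(C, U i) := fun i => secAlgebra c (U i)
  let algV : Algebra k Γ(C, V) := secAlgebra c V
  let res : ∀ i, Γ(C, U i) →ₐ[k] Γ(C, V) := fun i =>
    { (C.presheaf.map (homOfLE (hVle i)).op).hom with
      commutes' := fun a => ConcreteCategory.congr_hom (kSec_map c (hVle i)) a }
  have hgermres : ∀ i (s : Γ(C, U i)),
      C.germToFunctionField V (res i s) = C.germToFunctionField (U i) s :=
    fun i s => germToFunctionField_map (hVle i) s
  have hft : ∀ i, Algebra.FiniteType k Γ(C, U i) := fun i => finiteType_of_finite c (hfin i)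
  -- evaluation at the marked point, which lies in `U 0`
  obtain ⟨ev, hev⟩ : ∃ ev : Γ(C, U 0) →ₐ[k] k,
      Spec.map (CommRingCat.ofHom ev.toRingHom) ≫ (hU 0).fromSpec = ε.1 := by
    have hp : ∀ y, ε.1 y ∈ U 0 := fun y => by
      rw [Subsingleton.elim y (IsLocalRing.closedPoint k)]
      exact reg_germToFunctionField w hpW
    exact exists_ev c ε (hU 0) hp
  have hVaff : IsAffineOpen V := hVbasic 0 ▸ (hU 0).basicOpen (t 0)
  -- the algebraic data; a function regular on both charts is constant, the curve being proper
  let D : CurveData k :=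
    { B := fun i => Γ(C, U i)
      B01 := Γ(C, V)
      res := res
      t := t
      away := fun i => (hU i).isLocalization_of_eq_basicOpen (t i) (homOfLE (hVle i)) (hVbasic i)
      res_t_mul := by
        apply C.germToFunctionField_injective V
        rw [map_mul, map_one, hgermres, hgermres, ht, ht]
        exact mul_inv_cancel₀ hF0
      aeval_t_injective := hinj
      aeval_t_finite := hfin
      finiteType := hft
      isDomain := fun K _ _ i => by
        have := hne i
        have := hft i
        exact isDomain_tensorProduct _ K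
      isDedekind := fun K _ _ _ i => by
        have := hne i
        exact isDedekindDomain_tensor c (hU i) K (hft i)
      const := fun b₀ b₁ h => by
        have := hne 0
        have := hne 1
        exact exists_eq_kSec c (fun x => reg_or_reg_inv c F x) b₀ b₁
          (by rw [← hgermres, ← hgermres, h])
      ev := ev }
  have hjres : ∀ i, Spec.map (CommRingCat.ofHom (D.res i).toRingHom) ≫ (hU i).fromSpec =
      hVaff.fromSpec :=
    fun i => (hU i).map_fromSpec hVaff (homOfLE (hVle i)).op
  have hoi : ∀ i, IsOpenImmersion (Spec.map (CommRingCat.ofHom (D.res i).toRingHom)) := fun i => by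
    have : IsOpenImmersion (Spec.map (CommRingCat.ofHom (D.res i).toRingHom) ≫
        (hU i).fromSpec) := by
      rw [hjres]; infer_instance
    exact .of_comp _ (hU i).fromSpec
  have := hoi 1
  refine ⟨{ D := D, j := fun i => (hU i).fromSpec, j_over := fun i => fromSpec_over c (hU i),
            covers := ?_, overlap := ?_, ev_eq := hev }⟩
  · rw [IsAffineOpen.opensRange_fromSpec, IsAffineOpen.opensRange_fromSpec, eq_top_iff]
    intro x _
    exact reg_or_reg_inv c F x
  · exact isPullback_fromSpec (hU 0) (hU 1) hVaff rfl (hjres 0) (hjres 1)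

/-! ### Geometric integrality -/

/-- The stalks at the points of an integral open are reduced. -/
theorem isReduced_stalk_of_mem {X : Scheme.{u}} (O : X.Opens)
    (hO : IsIntegral (O : Scheme.{u})) {x : X} (hx : x ∈ O) :
    _root_.IsReduced (X.presheaf.stalk x) := by
  have hd : ∀ y : (O : Scheme.{u}), IsDomain ((O : Scheme.{u}).presheaf.stalk y) :=
    fun y => inferInstance
  have := hd ⟨x, hx⟩
  exact isReduced_of_injective (O.stalkIso ⟨x, hx⟩).inv.hom
    (O.stalkIso ⟨x, hx⟩).symm.commRingCatIsoToRingEquiv.injective

/-- The base change of the curve to a field is integral. -/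
theorem CurveCover.isIntegral_pullback {C : Scheme.{u}} {c : C ⟶ Spec (CommRingCat.of k)}
    {ε : SchemeHomOver (𝟙 (Spec (CommRingCat.of k))) c} (cov : CurveCover c ε)
    (K : Type u) [Field K] [Algebra k K] : IsIntegral (pullback c (specT k K)) := by
  have hdom : ∀ i, IsDomain (cov.D.A K i) := fun i => cov.D.isDomain K i
  let O : Fin 2 → (pullback c (specT k K)).Opens := fun i => (cov.jR K i).opensRange
  have hint : ∀ i, IsIntegral (O i : Scheme.{u}) := fun i =>
    IsIntegral.of_isIso (cov.jR K i).isoOpensRange.hom
  -- The two charts are integral and meet, as the overlap ring is nonzero.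
  have hne : ((O 0 : Set ↥(pullback c (specT k K))) ∩ O 1).Nonempty := by
    have hp : Nonempty (Spec (CommRingCat.of (K ⊗[k] cov.D.B01))) := by
      have : Nontrivial (K ⊗[k] cov.D.B01) := (CurveData.resR_injective cov.D K 0).nontrivial
      exact inferInstanceAs (Nonempty (PrimeSpectrum (K ⊗[k] cov.D.B01)))
    obtain ⟨q⟩ := hp
    let r : ∀ i, Spec (CommRingCat.of (K ⊗[k] cov.D.B01)) ⟶ pullback c (specT k K) := fun i =>
      Spec.map (CommRingCat.ofHom (algebraMap (cov.D.A K i) (cov.D.A01 K))) ≫ cov.jR K i
    refine ⟨r 0 q, ⟨_, rfl⟩, ?_⟩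
    have e : r 0 = r 1 := by
      have hw : ∀ i, r i ≫ pullback.fst c (specT k K) =
          Spec.map (CommRingCat.ofHom (Algebra.TensorProduct.includeRight :
            cov.D.B01 →ₐ[k] K ⊗[k] cov.D.B01).toRingHom) ≫
              Spec.map (CommRingCat.ofHom (cov.D.res i).toRingHom) ≫ cov.j i := fun i => by
        simp only [r, Category.assoc, jR_fst]
        rw [← Spec.map_comp_assoc, ← Spec.map_comp_assoc]
        congr 2
      apply pullback.hom_ext
      · rw [hw, hw, cov.overlap.w]
      · simp only [r, Category.assoc, jR_snd, ← Spec.map_comp, ← CommRingCat.ofHom_comp,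
          ← IsScalarTower.algebraMap_eq]
    rw [e]
    exact ⟨_, rfl⟩
  rw [isIntegral_iff_irreducibleSpace_and_isReduced]
  refine ⟨?_, ?_⟩
  · have hirr : ∀ i, IsIrreducible (O i : Set ↥(pullback c (specT k K))) := fun i => by
      have := hint i
      rw [← Scheme.Opens.range_ι (O i), ← Set.image_univ]
      exact (IrreducibleSpace.isIrreducible_univ (O i : Scheme.{u})).image _
        (O i).ι.continuous.continuousOn
    -- So their intersection is dense and irreducible.
    have hcl : closure ((O 0 : Set ↥(pullback c (specT k K))) ∩ O 1) = Set.univ := by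
      rw [Set.eq_univ_iff_forall]
      intro x
      have hx : x ∈ (O 0) ⊔ (O 1) := by rw [show O 0 ⊔ O 1 = ⊤ from cov.jR_covers K]; trivial
      rcases hx with hx | hx
      · exact subset_closure_inter_of_isPreirreducible_of_isOpen (hirr 0).2 (O 1).2 hne hx
      · rw [Set.inter_comm]
        exact subset_closure_inter_of_isPreirreducible_of_isOpen (hirr 1).2 (O 0).2
          (Set.inter_comm _ _ ▸ hne) hx
    have h01 : IsPreirreducible ((O 0 : Set ↥(pullback c (specT k K))) ∩ O 1) :=
      (hirr 0).2.open_subset ((O 0).2.inter (O 1).2) Set.inter_subset_left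
    have := h01.closure
    rw [hcl] at this
    exact { toPreirreducibleSpace := ⟨this⟩, toNonempty := ⟨hne.some⟩ }
  -- Reducedness is local.
  · suffices hred : ∀ x : ↥(pullback c (specT k K)),
        _root_.IsReduced ((pullback c (specT k K)).presheaf.stalk x) from
      isReduced_of_isReduced_stalk (pullback c (specT k K))
    intro x
    have hx : x ∈ (O 0) ⊔ (O 1) := by rw [show O 0 ⊔ O 1 = ⊤ from cov.jR_covers K]; trivial
    obtain ⟨i, hxi⟩ : ∃ i, x ∈ O i := hx.elim (fun h => ⟨0, h⟩) (fun h => ⟨1, h⟩)
    have := hint i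
    exact isReduced_stalk_of_mem (O i) (hint i) hxi

/-- A smooth proper integral curve over an algebraically closed field is geometrically integral. -/
theorem geometricallyIntegral_curve [IsAlgClosed k] {C : Scheme.{u}}
    (c : C ⟶ Spec (CommRingCat.of k)) [IsProper c] [SmoothOfRelativeDimension 1 c] [IsIntegral C] :
    GeometricallyIntegral c := by
  have : JacobsonSpace C := LocallyOfFiniteType.jacobsonSpace c
  obtain ⟨x, -, hx⟩ := nonempty_inter_closedPoints
    (Set.univ_nonempty (α := C)) isOpen_univ.isLocallyClosed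
  obtain ⟨cov⟩ := exists_curveCover c ⟨pointOfClosedPoint c x hx, pointOfClosedPoint_comp c x hx⟩
  constructor
  intro K _ y Z fst snd h
  obtain ⟨ψ, rfl⟩ : ∃ ψ, Spec.map ψ = y := ⟨_, Spec.map_preimage y⟩
  let := ψ.hom.toAlgebra
  have := cov.isIntegral_pullback K
  exact IsIntegral.of_isIso h.isoPullback.inv

end Fermat.Agent.Jac

end
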